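/-
P-CFT GLOBAL / G-LOC (row 493, helper88), part 2: valuation preserving automorphisms extend to
the adic completion; density of the field in its completion, in valuation form.
-/
import Mathlib

set_option autoImplicit false
set_option maxSynthPendingDepth 3
set_option linter.unusedSectionVars false
set_option linter.style.haveILetI false

noncomputable section

open NumberField IsDedekindDomain

namespace Fermat.Agent.H88.Cft

section general

variable {R : Type*} [Field R] {Γ₀ : Type*} [LinearOrderedCommGroupWithZero Γ₀]
  (v : Valuation R Γ₀)

/-- A valuation preserving ring endomorphism is continuous for the valuation topology. -/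
theorem continuous_withVal_map (σ : R →+* R) (hσ : ∀ x, v (σ x) = v x) :
    Continuous (WithVal.map v v σ) := by
  apply continuous_of_continuousAt_zero
  rw [ContinuousAt, map_zero]
  intro s hs
  rw [Valued.mem_nhds_zero] at hs
  obtain ⟨γ, hγ⟩ := hs
  rw [Filter.mem_map, Valued.mem_nhds_zero]
  refine ⟨γ, fun x hx => hγ ?_⟩
  rw [Set.mem_ofPred_eq, Valuation.restrict_lt_iff_lt_embedding] at hx ⊢
  have : Valued.v (WithVal.map v v σ x) = Valued.v x := by
    show v (σ x.ofVal) = v x.ofVal
    exact hσ _
  rw [this]
  exact hx

/-- The extension of a valuation preserving endomorphism to the completion. -/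
def complHom (σ : R →+* R) (hσ : ∀ x, v (σ x) = v x) : v.Completion →+* v.Completion :=
  UniformSpace.Completion.mapRingHom (WithVal.map v v σ) (continuous_withVal_map v σ hσ)

theorem complHom_coe (σ : R →+* R) (hσ : ∀ x, v (σ x) = v x) (x : WithVal v) :
    complHom v σ hσ (x : v.Completion) = ((WithVal.map v v σ x : WithVal v) : v.Completion) :=
  UniformSpace.Completion.mapRingHom_coe _ x

theorem complHom_congr {σ τ : R →+* R} (h : σ = τ) (hσ : ∀ x, v (σ x) = v x)
    (hτ : ∀ x, v (τ x) = v x) (x : v.Completion) :
    complHom v σ hσ x = complHom v τ hτ x := by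
  subst h; rfl

theorem continuous_complHom (σ : R →+* R) (hσ : ∀ x, v (σ x) = v x) :
    Continuous (complHom v σ hσ) :=
  UniformSpace.Completion.continuous_map

theorem complHom_comp (σ τ : R →+* R) (hσ : ∀ x, v (σ x) = v x) (hτ : ∀ x, v (τ x) = v x)
    (x : v.Completion) :
    complHom v σ hσ (complHom v τ hτ x) =
      complHom v (σ.comp τ) (fun y => (hσ _).trans (hτ y)) x := by
  have h := UniformSpace.Completion.mapRingHom_comp (continuous_withVal_map v σ hσ)
    (continuous_withVal_map v τ hτ)
  exact congrArg (fun f : v.Completion →+* v.Completion => f x) h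

theorem complHom_id (x : v.Completion) :
    complHom v (RingHom.id R) (fun _ => rfl) x = x := by
  have h : complHom v (RingHom.id R) (fun _ => rfl) = RingHom.id _ :=
    UniformSpace.Completion.mapRingHom_id
  rw [h]; rfl

/-- The extension of a valuation preserving endomorphism preserves the valuation. -/
theorem valued_complHom (σ : R →+* R) (hσ : ∀ x, v (σ x) = v x) (x : v.Completion) :
    Valued.v (complHom v σ hσ x) = Valued.v x := by
  rcases eq_or_ne x 0 with rfl | hx
  · simp
  have hσx : complHom v σ hσ x ≠ 0 := by
    intro h
    exact hx ((map_eq_zero_iff _ (RingHom.injective _)).mp h)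
  have h1 : {y : v.Completion | Valued.v y = Valued.v x} ∈ nhds x :=
    Valued.locally_const (by simpa using hx)
  have h2 : {y : v.Completion | Valued.v y = Valued.v (complHom v σ hσ x)} ∈
      nhds (complHom v σ hσ x) :=
    Valued.locally_const (by simpa using hσx)
  have h3 := (continuous_complHom v σ hσ).continuousAt.preimage_mem_nhds h2
  obtain ⟨y, hy⟩ := UniformSpace.Completion.denseRange_coe.mem_nhds (Filter.inter_mem h1 h3)
  obtain ⟨hy1, hy2⟩ := hy
  simp only [Set.mem_ofPred_eq, Set.mem_preimage] at hy1 hy2
  rw [← hy2, ← hy1, complHom_coe, Valued.valuedCompletion_apply, Valued.valuedCompletion_apply]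
  exact hσ _

end general

end Fermat.Agent.H88.Cft

end
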