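/-
P-CFT GLOBAL / G-LOC (row 493, helper88), part 4: a group acting on a field by isometries of an
adic valuation acts on the adic completion; the completion is henselian with finite residue field
and the field is dense in it.
-/
import Fermat.Agent.H88.Cft.LocCompl
import Fermat.Agent.H30.CompleteDVR

set_option autoImplicit false
set_option maxSynthPendingDepth 3
set_option linter.unusedSectionVars false
set_option linter.style.haveILetI false

noncomputable section

open IsDedekindDomain HeightOneSpectrum WithZero

namespace Fermat.Agent.H88.Cft

section adic

variable {A : Type*} [CommRing A] [IsDedekindDomain A] {L : Type*} [Field L] [Algebra A L]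
  [IsFractionRing A L] (w : HeightOneSpectrum A)

/-- The extension of a valuation preserving endomorphism to the adic completion. -/
def adicHom (σ : L →+* L) (hσ : ∀ x, w.valuation L (σ x) = w.valuation L x) :
    w.adicCompletion L →+* w.adicCompletion L :=
  ((adicCompletion.equiv L w).symm : (w.valuation L).Completion →+* w.adicCompletion L).comp
    ((complHom (w.valuation L) σ hσ).comp
      ((adicCompletion.equiv L w) : w.adicCompletion L →+* (w.valuation L).Completion))

theorem adicHom_toCompletion (σ : L →+* L) (hσ : ∀ x, w.valuation L (σ x) = w.valuation L x)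
    (x : w.adicCompletion L) :
    (adicHom w σ hσ x).toCompletion = complHom (w.valuation L) σ hσ x.toCompletion := rfl

theorem adicHom_algebraMap (σ : L →+* L) (hσ : ∀ x, w.valuation L (σ x) = w.valuation L x)
    (y : L) :
    adicHom w σ hσ (algebraMap L (w.adicCompletion L) y)
      = algebraMap L (w.adicCompletion L) (σ y) := by
  apply adicCompletion.ext
  rw [adicHom_toCompletion]
  exact complHom_coe (w.valuation L) σ hσ (WithVal.toVal (w.valuation L) y)

theorem valued_adicHom (σ : L →+* L) (hσ : ∀ x, w.valuation L (σ x) = w.valuation L x)
    (x : w.adicCompletion L) : Valued.v (adicHom w σ hσ x) = Valued.v x := by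
  rw [← adicCompletion.valued_toCompletion, adicHom_toCompletion, valued_complHom,
    adicCompletion.valued_toCompletion]

variable {G : Type*} [Group G] [MulSemiringAction G L]

/-- The isometry condition, for the ring homomorphisms of the action. -/
theorem hinv_toRingHom (hinv : ∀ (g : G) (x : L), w.valuation L (g • x) = w.valuation L x)
    (g : G) (x : L) :
    w.valuation L (MulSemiringAction.toRingHom G L g x) = w.valuation L x := hinv g x

/-- The action on the adic completion of a group acting by isometries. -/
@[reducible] def adicAction (hinv : ∀ (g : G) (x : L), w.valuation L (g • x) = w.valuation L x) :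
    MulSemiringAction G (w.adicCompletion L) where
  smul g x := adicHom w (MulSemiringAction.toRingHom G L g) (hinv_toRingHom w hinv g) x
  one_smul x := by
    apply adicCompletion.ext
    show complHom (w.valuation L) (MulSemiringAction.toRingHom G L 1) (hinv_toRingHom w hinv 1)
      x.toCompletion = x.toCompletion
    have h1 : MulSemiringAction.toRingHom G L 1 = RingHom.id L := by
      ext y; exact one_smul G y
    rw [complHom_congr (w.valuation L) h1 (hinv_toRingHom w hinv 1) (fun _ => rfl), complHom_id]
  mul_smul g h x := by
    apply adicCompletion.ext
    show complHom (w.valuation L) (MulSemiringAction.toRingHom G L (g * h))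
        (hinv_toRingHom w hinv (g * h)) x.toCompletion
      = complHom (w.valuation L) (MulSemiringAction.toRingHom G L g) (hinv_toRingHom w hinv g)
        (complHom (w.valuation L) (MulSemiringAction.toRingHom G L h) (hinv_toRingHom w hinv h)
          x.toCompletion)
    have h1 : MulSemiringAction.toRingHom G L (g * h)
        = (MulSemiringAction.toRingHom G L g).comp (MulSemiringAction.toRingHom G L h) := by
      ext y; exact mul_smul g h y
    rw [complHom_comp]
    exact complHom_congr (w.valuation L) h1 _ _ _
  smul_zero g := map_zero _
  smul_add g x y := map_add _ _ _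
  smul_one g := map_one _
  smul_mul g x y := map_mul _ _ _

theorem adicAction_smul_def (hinv : ∀ (g : G) (x : L), w.valuation L (g • x) = w.valuation L x)
    (g : G) (x : w.adicCompletion L) :
    letI := adicAction w hinv
    g • x = adicHom w (MulSemiringAction.toRingHom G L g) (hinv_toRingHom w hinv g) x := rfl

theorem adicAction_algebraMap
    (hinv : ∀ (g : G) (x : L), w.valuation L (g • x) = w.valuation L x) (g : G) (y : L) :
    letI := adicAction w hinv
    g • (algebraMap L (w.adicCompletion L) y) = algebraMap L (w.adicCompletion L) (g • y) :=
  adicHom_algebraMap w _ (hinv_toRingHom w hinv g) y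

theorem valued_adicAction
    (hinv : ∀ (g : G) (x : L), w.valuation L (g • x) = w.valuation L x) (g : G)
    (x : w.adicCompletion L) :
    letI := adicAction w hinv
    Valued.v (g • x) = Valued.v x :=
  valued_adicHom w _ (hinv_toRingHom w hinv g) x

theorem faithful_adicAction [FaithfulSMul G L]
    (hinv : ∀ (g : G) (x : L), w.valuation L (g • x) = w.valuation L x) :
    letI := adicAction w hinv
    FaithfulSMul G (w.adicCompletion L) := by
  letI := adicAction w hinv
  refine ⟨fun {g h} hgh => ?_⟩
  apply FaithfulSMul.eq_of_smul_eq_smul (α := L)
  intro y
  have := hgh (algebraMap L (w.adicCompletion L) y)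
  rw [adicAction_algebraMap, adicAction_algebraMap] at this
  exact (algebraMap L (w.adicCompletion L)).injective this

/-- Density of the field in its completion, in valuation form. -/
theorem adic_dense (x : w.adicCompletion L) {γ : ℤᵐ⁰} (hγ : γ ≠ 0) :
    ∃ y : L, Valued.v (x - algebraMap L (w.adicCompletion L) y) < γ := by
  obtain ⟨z, hz⟩ := valuedAdicCompletion_surjective L w γ
  have hU : {y : w.adicCompletion L | Valued.v (y - x) < γ} ∈ nhds x := by
    rw [Valued.mem_nhds]
    have hzne : z ≠ 0 := by
      rw [← Valuation.ne_zero_iff (Valued.v : Valuation (w.adicCompletion L) ℤᵐ⁰), hz]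
      exact hγ
    have hz0 : (Valued.v : Valuation (w.adicCompletion L) ℤᵐ⁰).restrict z ≠ 0 := by
      simpa using hzne
    refine ⟨Units.mk0 _ hz0, fun y hy => ?_⟩
    simp only [Units.val_mk0, Set.mem_ofPred_eq, Valuation.restrict_lt_iff] at hy
    rw [hz] at hy
    exact hy
  obtain ⟨_, hy, ⟨k, rfl⟩⟩ := mem_closure_iff_nhds.mp
    ((denseRange_algebraMap (K := L) w) x) _ hU
  refine ⟨k, ?_⟩
  rw [Valuation.map_sub_swap]
  exact hy

/-- The completed local ring is henselian. -/
theorem henselian_adic : HenselianLocalRing (w.adicCompletionIntegers L) := by
  haveI : IsAdicComplete (IsLocalRing.maximalIdeal (w.adicCompletionIntegers L))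
      (w.adicCompletionIntegers L) := Fermat.Agent.H30.isAdicComplete_adicCompletionIntegers w
  exact { is_henselian := fun f hf a₀ h1 h2 =>
      HenselianRing.is_henselian f hf a₀ h1 (h2.map _) }

end adic

end Fermat.Agent.H88.Cft

end
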