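/-
P-CFT GLOBAL / G-LOC (row 493, helper88), part 1: the split case of the local norm index
statement in approximation form, and the comparison of the valuations of `K` and `L`.
-/
import Fermat.Agent.H65.Cft.WeakApprox
import Fermat.Agent.H97.Cft.UnitsH1

set_option autoImplicit false
set_option maxSynthPendingDepth 3
set_option linter.unusedSectionVars false
set_option linter.style.haveILetI false

noncomputable section

open NumberField IsDedekindDomain

namespace Fermat.Agent.H88.Cft

open Fermat.Agent.H43.Cft Fermat.Agent.H97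

universe u v

/-- In `ℤᵐ⁰`, `a ^ e ≤ exp (e * k)` implies `a ≤ exp k`. -/
theorem le_exp_of_pow_le {a : WithZero (Multiplicative ℤ)} {e : ℕ} (he : e ≠ 0) {k : ℤ}
    (h : a ^ e ≤ WithZero.exp ((e : ℤ) * k)) : a ≤ WithZero.exp k := by
  rcases eq_or_ne a 0 with rfl | ha
  · exact zero_le
  obtain ⟨j, rfl⟩ : ∃ j : ℤ, a = WithZero.exp j := ⟨WithZero.log a, (WithZero.exp_log ha).symm⟩
  rw [← WithZero.exp_nsmul, WithZero.exp_le_exp] at h
  rw [WithZero.exp_le_exp]
  have he' : (0 : ℤ) < e := by exact_mod_cast Nat.pos_of_ne_zero he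
  rw [nsmul_eq_mul] at h
  exact le_of_mul_le_mul_left h he'

/-- A product of elements `≡ 1` is `≡ 1`. -/
theorem val_prod_sub_one {F : Type*} [Field F] {Γ₀ : Type*} [LinearOrderedCommGroupWithZero Γ₀]
    (val : Valuation F Γ₀) {ι : Type*} (s : Finset ι) (x : ι → F) {δ : Γ₀} (hδ : δ ≤ 1)
    (h : ∀ i ∈ s, val (x i - 1) ≤ δ) : val (∏ i ∈ s, x i - 1) ≤ δ := by
  classical
  induction s using Finset.induction_on with
  | empty => simp
  | insert a s ha ih =>
    have ih' := ih fun i hi => h i (Finset.mem_insert_of_mem hi)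
    have hxa := h a (Finset.mem_insert_self a s)
    rw [Finset.prod_insert ha]
    have e : x a * ∏ i ∈ s, x i - 1 = (x a - 1) * (∏ i ∈ s, x i - 1) + (x a - 1)
        + (∏ i ∈ s, x i - 1) := by ring
    rw [e]
    refine (val.map_add _ _).trans (max_le ((val.map_add _ _).trans (max_le ?_ hxa)) ih')
    rw [map_mul]
    calc val (x a - 1) * val (∏ i ∈ s, x i - 1) ≤ δ * 1 := mul_le_mul' hxa (ih'.trans hδ)
      _ = δ := mul_one δ

section

variable {K : Type u} [Field K] [NumberField K] {L : Type v} [Field L] [NumberField L]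
  [Algebra K L]

/-- Comparison of the valuations at a prime `w` of `L` and at the prime of `K` below it. -/
theorem exists_valuation_pow (v : HeightOneSpectrum (𝓞 K)) (w : HeightOneSpectrum (𝓞 L))
    (hw : w.under (𝓞 K) = v) :
    ∃ e : ℕ, e ≠ 0 ∧ ∀ x : K, w.valuation L (algebraMap K L x) = v.valuation K x ^ e := by
  haveI hP : w.asIdeal.LiesOver v.asIdeal := ⟨by rw [← hw]; rfl⟩
  refine ⟨v.asIdeal.ramificationIdx' w.asIdeal,
    Ideal.IsDedekindDomain.ramificationIdx'_ne_zero_of_liesOver w.asIdeal v.ne_bot, fun x => ?_⟩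
  exact (HeightOneSpectrum.valuation_liesOver L v w x).symm

/-- The Galois conjugates of a prime. -/
theorem galPrime_one (w : HeightOneSpectrum (𝓞 L)) :
    primeComap (galInt (1 : L ≃ₐ[K] L)) w = w := by
  apply HeightOneSpectrum.ext
  ext b
  rw [primeComap_asIdeal, Ideal.mem_comap, galInt_apply, one_smul]

theorem galPrime_mul (σ τ : L ≃ₐ[K] L) (w : HeightOneSpectrum (𝓞 L)) :
    primeComap (galInt (σ * τ)) w = primeComap (galInt τ) (primeComap (galInt σ) w) := by
  apply HeightOneSpectrum.ext
  ext b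
  rw [primeComap_asIdeal, Ideal.mem_comap, primeComap_asIdeal, Ideal.mem_comap,
    primeComap_asIdeal, Ideal.mem_comap, galInt_apply, galInt_apply, galInt_apply, mul_smul]

/-- The stabiliser of a prime, as a subgroup of the Galois group. -/
def galStab (K : Type u) [Field K] [NumberField K] {L : Type v} [Field L] [NumberField L]
    [Algebra K L] (w : HeightOneSpectrum (𝓞 L)) : Subgroup (L ≃ₐ[K] L) where
  carrier := {σ | primeComap (galInt σ) w = w}
  one_mem' := galPrime_one w
  mul_mem' := by
    intro a b ha hb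
    simp only [Set.mem_ofPred_eq] at ha hb ⊢
    rw [galPrime_mul, ha, hb]
  inv_mem' := by
    intro a ha
    simp only [Set.mem_ofPred_eq] at ha ⊢
    have h := galPrime_mul a a⁻¹ w
    rw [mul_inv_cancel, galPrime_one, ha] at h
    exact h.symm

theorem mem_galStab {w : HeightOneSpectrum (𝓞 L)} {σ : L ≃ₐ[K] L} :
    σ ∈ galStab K w ↔ primeComap (galInt σ) w = w := Iff.rfl

/-- In a Galois extension of prime degree, the stabiliser of a prime above a split prime is
trivial. -/
theorem galStab_eq_bot [IsGalois K L] (p : ℕ) (hp : p.Prime) (hdeg : Module.finrank K L = p)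
    (w w' : HeightOneSpectrum (𝓞 L)) (hww' : w.under (𝓞 K) = w'.under (𝓞 K)) (hne : w ≠ w') :
    galStab K w = ⊥ := by
  haveI : Fact (Nat.card (L ≃ₐ[K] L)).Prime := ⟨by
    rw [IsGalois.card_aut_eq_finrank, hdeg]; exact hp⟩
  rcases (galStab K w).eq_bot_or_eq_top_of_prime_card with h | h
  · exact h
  · exfalso
    obtain ⟨τ, hτ⟩ := exists_galPrime_of_under_eq (K := K) w w' hww'
    have : τ ∈ galStab K w := by rw [h]; exact Subgroup.mem_top τ
    rw [mem_galStab] at this
    exact hne (this.symm.trans hτ.symm)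

/-- **The split case**: if `v` splits in the Galois extension `L/K` of prime degree, every
element of `Kˣ` is a local norm at `v`. -/
theorem locNorm_eq_top_of_split [IsGalois K L] (p : ℕ) (hp : p.Prime)
    (hdeg : Module.finrank K L = p) (v : HeightOneSpectrum (𝓞 K)) (hs : ¬ Nonsplit K L v) :
    locNorm K L v = ⊤ := by
  classical
  unfold Nonsplit at hs
  push Not at hs
  obtain ⟨w₁, w₂, hw₁, hw₂, hne⟩ := hs
  have hstab := galStab_eq_bot (K := K) p hp hdeg w₁ w₂ (hw₁.trans hw₂.symm) hne
  obtain ⟨e, he0, hval⟩ := exists_valuation_pow v w₁ hw₁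
  rw [eq_top_iff]
  intro x _
  rw [locNorm, vClosure, Subgroup.mem_iInf]
  intro m
  -- weak approximation in `L`
  obtain ⟨z, hz⟩ := Fermat.Agent.H65.weakApprox L (primesAbove K L {v}) (e * (m + 1))
    (fun w => if w = w₁ then Units.map (algebraMap K L : K →* L) x else 1)
  have hδ : WithZero.exp (-(((e * (m + 1) : ℕ) : ℤ) + 1)) ≤ (1 : WithZero (Multiplicative ℤ)) := by
    rw [← WithZero.exp_zero, WithZero.exp_le_exp]; omega
  -- the norm of `z` is close to `x`
  have hfac : ∀ τ : L ≃ₐ[K] L, w₁.valuation L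
      (τ (z : L) / (if τ = 1 then algebraMap K L (x : K) else 1) - 1)
        ≤ WithZero.exp (-(((e * (m + 1) : ℕ) : ℤ) + 1)) := by
    intro τ
    by_cases hτ : τ = 1
    · have h1 := hz w₁ (by rw [mem_primesAbove, hw₁]; exact Finset.mem_singleton_self v)
      rw [mem_principalUnits, if_pos rfl] at h1
      rw [if_pos hτ, hτ]
      simpa [Units.val_div_eq_div_val] using h1
    · have hne' : primeComap (galInt τ) w₁ ≠ w₁ := by
        intro h
        have : τ ∈ galStab K w₁ := h
        rw [hstab, Subgroup.mem_bot] at this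
        exact hτ this
      have h1 := hz (primeComap (galInt τ) w₁) (by
        rw [mem_primesAbove, under_galPrime, hw₁]; exact Finset.mem_singleton_self v)
      rw [mem_principalUnits, if_neg hne', div_one, valuation_galPrime] at h1
      rw [if_neg hτ, div_one]
      simpa using h1
  have hprod := val_prod_sub_one (w₁.valuation L) Finset.univ
    (fun τ : L ≃ₐ[K] L => τ (z : L) / (if τ = 1 then algebraMap K L (x : K) else 1)) hδ
    (fun τ _ => hfac τ)
  have hx0 : algebraMap K L (x : K) ≠ 0 := by simp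
  have hprod' : ∏ τ : L ≃ₐ[K] L, τ (z : L) / (if τ = 1 then algebraMap K L (x : K) else 1)
      = algebraMap K L (Algebra.norm K (z : L) / (x : K)) := by
    rw [Finset.prod_div_distrib, Finset.prod_ite_eq' Finset.univ (1 : L ≃ₐ[K] L)
      (fun _ => algebraMap K L (x : K)), if_pos (Finset.mem_univ _), map_div₀,
      Algebra.norm_eq_prod_automorphisms]
  rw [hprod'] at hprod
  have hval' := hval (Algebra.norm K (z : L) / (x : K) - 1)
  rw [map_sub, map_one] at hval'
  rw [hval'] at hprod
  have hbound : v.valuation K (Algebra.norm K (z : L) / (x : K) - 1)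
      ≤ WithZero.exp (-((m : ℤ) + 1)) := by
    apply le_exp_of_pow_le he0
    refine hprod.trans ?_
    rw [WithZero.exp_le_exp]
    push_cast
    nlinarith
  -- conclusion
  rw [Subgroup.mem_sup]
  refine ⟨Units.map (Algebra.norm K : L →* K) z, ⟨z, rfl⟩,
    (Units.map (Algebra.norm K : L →* K) z / x)⁻¹, ?_, ?_⟩
  · apply Subgroup.inv_mem
    rw [mem_principalUnits]
    simpa [Units.val_div_eq_div_val] using hbound
  · rw [inv_div, mul_div_cancel]

end

end Fermat.Agent.H88.Cft

end
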