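/-
P-CFT GLOBAL / G-LOC (row 493, helper88), part 5: the bridge.  `L/K` Galois extension of number
fields with group `G`, `v` a prime of `K`, `F` a valued field containing `L` densely, on which `G`
acts by isometries extending its action on `L`.  If the norm group of `F / F^G` is open, then the
`v`-adic closure of the global norms `locNorm K L v` is the preimage of the local norm group and
has the same index.
-/
import Fermat.Agent.H88.Cft.LocSplit
import Fermat.Agent.H88.Cft.LocFixed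

set_option autoImplicit false
set_option maxSynthPendingDepth 3
set_option linter.unusedSectionVars false
set_option linter.style.haveILetI false

noncomputable section

open NumberField IsDedekindDomain WithZero

namespace Fermat.Agent.H88.Cft

open Fermat.Agent.H43.Cft

section rel

variable {F : Type*} [Field F] (val : Valuation F ℤᵐ⁰)

/-- From absolute to relative closeness. -/
theorem rel_of_abs {x z : F} (hx : x ≠ 0) {γ : ℤᵐ⁰} (h1 : val (x - z) < val x)
    (h2 : val (x - z) < γ * val x) : z ≠ 0 ∧ val z = val x ∧ val (x / z - 1) < γ := by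
  have hvz : val z = val x := by
    apply Valuation.map_eq_of_sub_lt
    rw [Valuation.map_sub_swap]; exact h1
  have hvx : val x ≠ 0 := (Valuation.ne_zero_iff val).2 hx
  have hz : z ≠ 0 := by rw [← Valuation.ne_zero_iff val, hvz]; exact hvx
  refine ⟨hz, hvz, ?_⟩
  have e : x / z - 1 = (x - z) / z := by field_simp
  rw [e, map_div₀, hvz, div_lt_iff₀ (zero_lt_iff.2 hvx)]
  exact h2

/-- A nonzero bound which is below two given nonzero bounds. -/
theorem exists_lt_bounds {a b : ℤᵐ⁰} (ha : a ≠ 0) (hb : b ≠ 0) :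
    ∃ c : ℤᵐ⁰, c ≠ 0 ∧ c ≤ a ∧ c ≤ b :=
  ⟨min a b, by
    rcases min_choice a b with h | h <;> rw [h] <;> assumption, min_le_left _ _, min_le_right _ _⟩

end rel

section bridge

universe u v

variable {K : Type u} [Field K] [NumberField K] {L : Type v} [Field L] [NumberField L]
  [Algebra K L] [IsGalois K L] (v : HeightOneSpectrum (𝓞 K))
  {F : Type*} [Field F] [MulSemiringAction (L ≃ₐ[K] L) F] [FaithfulSMul (L ≃ₐ[K] L) F]
  (val : Valuation F ℤᵐ⁰) (ι : L →+* F)

/-- The hypotheses of the bridge. -/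
structure BridgeHyp : Prop where
  equiv : ∀ (g : L ≃ₐ[K] L) (y : L), ι (g y) = g • ι y
  inv : ∀ (g : L ≃ₐ[K] L) (x : F), val (g • x) = val x
  pow : ∃ e : ℕ, e ≠ 0 ∧ ∀ x : K, val (ι (algebraMap K L x)) = v.valuation K x ^ e
  dense : ∀ (x : F) (γ : ℤᵐ⁰), γ ≠ 0 → ∃ y : L, val (x - ι y) < γ
  opn : ∃ δ : ℤᵐ⁰, δ ≠ 0 ∧ ∀ u : FixedPoints.subfield (L ≃ₐ[K] L) F, val ((u : F) - 1) ≤ δ →
      ∃ w : F, w ≠ 0 ∧ Algebra.norm (FixedPoints.subfield (L ≃ₐ[K] L) F) w = u

variable {v val ι}

/-- The embedding of `K` into the fixed field. -/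
def bridgeHom (h : BridgeHyp v val ι) : K →+* FixedPoints.subfield (L ≃ₐ[K] L) F :=
  (ι.comp (algebraMap K L)).codRestrict (FixedPoints.subfield (L ≃ₐ[K] L) F) (fun x g => by
    show g • ι (algebraMap K L x) = ι (algebraMap K L x)
    rw [← h.equiv, g.commutes])

theorem coe_bridgeHom (h : BridgeHyp v val ι) (x : K) :
    ((bridgeHom h x : FixedPoints.subfield (L ≃ₐ[K] L) F) : F) = ι (algebraMap K L x) := rfl

/-- Compatibility of the norms. -/
theorem bridgeHom_norm (h : BridgeHyp v val ι) (y : L) :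
    bridgeHom h (Algebra.norm K y)
      = Algebra.norm (FixedPoints.subfield (L ≃ₐ[K] L) F) (ι y) := by
  apply Subtype.ext
  rw [coe_bridgeHom]
  have h1 := algebraMap_norm_fixed (G := L ≃ₐ[K] L) (F := F) (ι y)
  have h2 : ((Algebra.norm (FixedPoints.subfield (L ≃ₐ[K] L) F) (ι y) :
      FixedPoints.subfield (L ≃ₐ[K] L) F) : F) = ∏ g : L ≃ₐ[K] L, g • ι y := h1
  rw [h2, Algebra.norm_eq_prod_automorphisms, map_prod]
  exact Finset.prod_congr rfl (fun g _ => h.equiv g y)

/-- The map on units. -/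
def bridgeUnits (h : BridgeHyp v val ι) : Kˣ →* (FixedPoints.subfield (L ≃ₐ[K] L) F)ˣ :=
  Units.map (bridgeHom h : K →* FixedPoints.subfield (L ≃ₐ[K] L) F)

theorem coe_bridgeUnits (h : BridgeHyp v val ι) (x : Kˣ) :
    (((bridgeUnits h x : (FixedPoints.subfield (L ≃ₐ[K] L) F)ˣ) :
      FixedPoints.subfield (L ≃ₐ[K] L) F) : F) = ι (algebraMap K L (x : K)) := rfl

theorem charZero_of_bridge (h : BridgeHyp v val ι) : CharZero F :=
  charZero_of_injective_ringHom ι.injective

/-- `K` is dense in the fixed field (trace argument). -/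
theorem dense_fixed (h : BridgeHyp v val ι) (x : FixedPoints.subfield (L ≃ₐ[K] L) F)
    {γ : ℤᵐ⁰} (hγ : γ ≠ 0) : ∃ c : K, val ((x : F) - ι (algebraMap K L c)) < γ := by
  haveI := charZero_of_bridge h
  set n : ℕ := Fintype.card (L ≃ₐ[K] L) with hn
  have hn0 : n ≠ 0 := Fintype.card_ne_zero
  have hnF : (n : F) ≠ 0 := by exact_mod_cast hn0
  have hvn : val (n : F) ≠ 0 := (Valuation.ne_zero_iff val).2 hnF
  obtain ⟨y, hy⟩ := h.dense (x : F) (γ * val (n : F)) (mul_ne_zero hγ hvn)
  refine ⟨Algebra.trace K L y / (n : K), ?_⟩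
  have e1 : ι (algebraMap K L (Algebra.trace K L y / (n : K)))
      = (∑ g : L ≃ₐ[K] L, g • ι y) / (n : F) := by
    rw [map_div₀, map_div₀, map_natCast, map_natCast, trace_eq_sum_automorphisms, map_sum]
    congr 1
    exact Finset.sum_congr rfl (fun g _ => h.equiv g y)
  have e2 : (x : F) = (∑ g : L ≃ₐ[K] L, g • (x : F)) / (n : F) := by
    have : ∀ g : L ≃ₐ[K] L, g • (x : F) = (x : F) := fun g => x.2 g
    simp only [this, Finset.sum_const, Finset.card_univ, nsmul_eq_mul]
    rw [← hn]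
    field_simp
  have e3 : (x : F) - ι (algebraMap K L (Algebra.trace K L y / (n : K)))
      = (∑ g : L ≃ₐ[K] L, g • ((x : F) - ι y)) / (n : F) := by
    rw [e1]
    conv_lhs => rw [e2]
    rw [← sub_div, ← Finset.sum_sub_distrib]
    congr 1
    exact Finset.sum_congr rfl (fun g _ => (smul_sub g _ _).symm)
  rw [e3, map_div₀, div_lt_iff₀ (zero_lt_iff.2 hvn)]
  refine lt_of_le_of_lt (Valuation.map_sum_le val (fun g _ => ?_)) hy
  rw [h.inv]

/-- The closure of the global norms lies in the preimage of the local norms. -/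
theorem locNorm_le_comap (h : BridgeHyp v val ι) :
    locNorm K L v ≤ (Fermat.Agent.H78.CFT.normSubgroup
      (FixedPoints.subfield (L ≃ₐ[K] L) F) F).comap (bridgeUnits h) := by
  intro x hx
  obtain ⟨δ, hδ0, hδ⟩ := h.opn
  obtain ⟨e, he0, hpow⟩ := h.pow
  set m : ℕ := (-log δ).toNat with hm
  have hmδ : exp (-((m : ℤ) + 1)) ≤ δ := by
    conv_rhs => rw [← exp_log hδ0]
    rw [exp_le_exp]
    have := Int.self_le_toNat (-log δ)
    omega
  rw [locNorm, vClosure, Subgroup.mem_iInf] at hx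
  obtain ⟨_, ⟨y, rfl⟩, u, hu, rfl⟩ := Subgroup.mem_sup.mp (hx m)
  rw [Subgroup.mem_comap, map_mul]
  refine Subgroup.mul_mem _ ?_ ?_
  · refine ⟨Units.map (ι : L →* F) y, ?_⟩
    apply Units.ext
    exact (bridgeHom_norm h (y : L)).symm
  · rw [mem_principalUnits] at hu
    have hle1 : v.valuation K ((u : K) - 1) ≤ 1 := hu.trans (by
      rw [← exp_zero, exp_le_exp]; omega)
    have hb : val (((bridgeUnits h u : (FixedPoints.subfield (L ≃ₐ[K] L) F)ˣ) :
        FixedPoints.subfield (L ≃ₐ[K] L) F) - 1 : F) ≤ δ := by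
      rw [coe_bridgeUnits]
      have e1 : ι (algebraMap K L (u : K)) - 1 = ι (algebraMap K L ((u : K) - 1)) := by
        rw [map_sub, map_sub, map_one, map_one]
      rw [e1, hpow]
      exact ((pow_le_of_le_one zero_le hle1 he0).trans hu).trans hmδ
    obtain ⟨w, hw0, hw⟩ := hδ _ hb
    exact ⟨Units.mk0 w hw0, Units.ext hw⟩

/-- The preimage of the local norms lies in the closure of the global norms. -/
theorem comap_le_locNorm (h : BridgeHyp v val ι) :
    (Fermat.Agent.H78.CFT.normSubgroup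
      (FixedPoints.subfield (L ≃ₐ[K] L) F) F).comap (bridgeUnits h) ≤ locNorm K L v := by
  intro x hx
  obtain ⟨y', hy'⟩ := hx
  obtain ⟨e, he0, hpow⟩ := h.pow
  rw [locNorm, vClosure, Subgroup.mem_iInf]
  intro m
  set γ : ℤᵐ⁰ := exp (-(((e * (m + 1) : ℕ) : ℤ))) with hγ
  have hγ1 : γ ≤ 1 := by
    rw [hγ, ← exp_zero, exp_le_exp]; omega
  have hy'0 : (y' : F) ≠ 0 := Units.ne_zero y'
  have hvy' : val (y' : F) ≠ 0 := (Valuation.ne_zero_iff val).2 hy'0
  obtain ⟨c, hc0, hc1, hc2⟩ := exists_lt_bounds hvy' (mul_ne_zero (exp_ne_zero (a := -(((e * (m + 1) : ℕ) : ℤ)))) hvy')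
  obtain ⟨y, hy⟩ := h.dense (y' : F) c hc0
  obtain ⟨hιy0, -, hrel⟩ := rel_of_abs val hy'0 (lt_of_lt_of_le hy hc1) (lt_of_lt_of_le hy hc2)
  have hy0 : y ≠ 0 := fun h0 => hιy0 (by rw [h0, map_zero])
  set t : F := (y' : F) / ι y with ht
  -- the norm of `t`
  have hconj : ∀ g : L ≃ₐ[K] L, val (g • t - 1) ≤ γ := by
    intro g
    have : g • t - 1 = g • (t - 1) := by rw [smul_sub, smul_one]
    rw [this, h.inv]
    exact hrel.le
  have hprod := val_prod_sub_one val Finset.univ (fun g : L ≃ₐ[K] L => g • t) hγ1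
    (fun g _ => hconj g)
  rw [← algebraMap_norm_fixed] at hprod
  -- `N(y') = N(t) * N(ι y)`
  have hmul : Algebra.norm (FixedPoints.subfield (L ≃ₐ[K] L) F) (y' : F)
      = Algebra.norm (FixedPoints.subfield (L ≃ₐ[K] L) F) t
        * Algebra.norm (FixedPoints.subfield (L ≃ₐ[K] L) F) (ι y) := by
    rw [← map_mul, ht, div_mul_cancel₀ _ hιy0]
  have hNy0 : Algebra.norm K y ≠ 0 := by
    rw [Ne, Algebra.norm_eq_zero_iff]; exact hy0
  have hx1 : ι (algebraMap K L (x : K))
      = algebraMap (FixedPoints.subfield (L ≃ₐ[K] L) F) F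
          (Algebra.norm (FixedPoints.subfield (L ≃ₐ[K] L) F) t)
        * ι (algebraMap K L (Algebra.norm K y)) := by
    have h1 := congrArg (fun z : (FixedPoints.subfield (L ≃ₐ[K] L) F)ˣ =>
      ((z : FixedPoints.subfield (L ≃ₐ[K] L) F) : F)) hy'
    simp only [Units.coe_map, MonoidHom.coe_coe] at h1
    rw [coe_bridgeUnits] at h1
    rw [← h1, hmul, ← coe_bridgeHom h, bridgeHom_norm]
    rfl
  have hιN0 : ι (algebraMap K L (Algebra.norm K y)) ≠ 0 := by
    rw [Ne, map_eq_zero, map_eq_zero]; exact hNy0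
  have hx2 : ι (algebraMap K L ((x : K) / Algebra.norm K y - 1))
      = algebraMap (FixedPoints.subfield (L ≃ₐ[K] L) F) F
          (Algebra.norm (FixedPoints.subfield (L ≃ₐ[K] L) F) t) - 1 := by
    rw [map_sub, map_sub, map_one, map_one, map_div₀, map_div₀, hx1, mul_div_cancel_right₀ _ hιN0]
  have hbound : v.valuation K ((x : K) / Algebra.norm K y - 1) ≤ exp (-((m : ℤ) + 1)) := by
    apply le_exp_of_pow_le he0
    rw [← hpow, hx2]
    refine hprod.trans ?_
    rw [hγ, exp_le_exp]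
    push_cast
    linarith
  rw [Subgroup.mem_sup]
  refine ⟨Units.map (Algebra.norm K : L →* K) (Units.mk0 y hy0), ⟨_, rfl⟩,
    x / Units.map (Algebra.norm K : L →* K) (Units.mk0 y hy0), ?_, mul_div_cancel _ _⟩
  rw [mem_principalUnits]
  simpa [Units.val_div_eq_div_val] using hbound

/-- The closure of the global norms is the preimage of the local norms. -/
theorem locNorm_eq_comap (h : BridgeHyp v val ι) :
    locNorm K L v = (Fermat.Agent.H78.CFT.normSubgroup
      (FixedPoints.subfield (L ≃ₐ[K] L) F) F).comap (bridgeUnits h) :=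
  le_antisymm (locNorm_le_comap h) (comap_le_locNorm h)

/-- `Kˣ` and the local norms generate the unit group of the fixed field. -/
theorem normSubgroup_sup_range (h : BridgeHyp v val ι) :
    Fermat.Agent.H78.CFT.normSubgroup (FixedPoints.subfield (L ≃ₐ[K] L) F) F
      ⊔ (bridgeUnits h).range = ⊤ := by
  rw [eq_top_iff]
  intro u _
  obtain ⟨δ, hδ0, hδ⟩ := h.opn
  have hu0 : ((u : FixedPoints.subfield (L ≃ₐ[K] L) F) : F) ≠ 0 := by
    intro h0
    exact Units.ne_zero u (Subtype.ext h0)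
  have hvu : val ((u : FixedPoints.subfield (L ≃ₐ[K] L) F) : F) ≠ 0 :=
    (Valuation.ne_zero_iff val).2 hu0
  obtain ⟨c, hc0, hc1, hc2⟩ := exists_lt_bounds hvu (mul_ne_zero hδ0 hvu)
  obtain ⟨a, ha⟩ := dense_fixed h (u : FixedPoints.subfield (L ≃ₐ[K] L) F) hc0
  obtain ⟨hιa0, -, hrel⟩ := rel_of_abs val hu0 (lt_of_lt_of_le ha hc1) (lt_of_lt_of_le ha hc2)
  have ha0 : a ≠ 0 := fun h0 => hιa0 (by rw [h0, map_zero, map_zero])
  have hmem : u / bridgeUnits h (Units.mk0 a ha0) ∈ Fermat.Agent.H78.CFT.normSubgroup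
      (FixedPoints.subfield (L ≃ₐ[K] L) F) F := by
    have hb : val ((((u / bridgeUnits h (Units.mk0 a ha0) :
        (FixedPoints.subfield (L ≃ₐ[K] L) F)ˣ) : FixedPoints.subfield (L ≃ₐ[K] L) F) : F) - 1)
        ≤ δ := by
      rw [Units.val_div_eq_div_val]
      push_cast
      rw [coe_bridgeUnits]
      exact hrel.le
    obtain ⟨w, hw0, hw⟩ := hδ _ hb
    exact ⟨Units.mk0 w hw0, Units.ext hw⟩
  rw [Subgroup.mem_sup]
  exact ⟨_, hmem, _, ⟨Units.mk0 a ha0, rfl⟩, div_mul_cancel _ _⟩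

/-- **The bridge**: the index of the closure of the global norms is the local norm index. -/
theorem index_locNorm_eq (h : BridgeHyp v val ι) :
    (locNorm K L v).index = (Fermat.Agent.H78.CFT.normSubgroup
      (FixedPoints.subfield (L ≃ₐ[K] L) F) F).index := by
  rw [locNorm_eq_comap h, Subgroup.index_comap, ← Subgroup.relIndex_sup_left,
    normSubgroup_sup_range h, Subgroup.relIndex_top_right]

end bridge

end Fermat.Agent.H88.Cft

end
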