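/-
P-CFT GLOBAL / G-LOC (row 493, helper88): **the local norm index in approximation form**.

`Fermat.Agent.H88.Cft.localNormIndex : Fermat.Agent.H43.Cft.LocalNormIndexStatement`.

For `L/K` Galois of prime degree `p` and a prime `v` of `K`:
* if `v` splits, every element of `Kˣ` is a `v`-adic limit of global norms (`LocSplit`);
* if `v` does not split, `w` the prime of `L` above `v`: the Galois group acts by isometries on
  the completion `F = L_w` (`LocAdic`), the extension `F / F^G` carries a `LocalNormDatum`
  (`LocFixed`), the local norm index theorem of helper78 gives `[F^Gˣ : N Fˣ] = p` and the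
  openness of the norm group, and the bridge (`LocBridge`) identifies the closure of the global
  norms with the preimage of the local norms.
-/
import Fermat.Agent.H88.Cft.LocBridge
import Fermat.Agent.H88.Cft.LocAdic
import Fermat.Agent.H78.CFT.LocalNormIndexU
import Fermat.Agent.H43.Cft.FirstIneq

set_option autoImplicit false
set_option maxSynthPendingDepth 3
set_option linter.unusedSectionVars false
set_option linter.style.haveILetI false

noncomputable section

open NumberField IsDedekindDomain WithZero

namespace Fermat.Agent.H88.Cft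

open Fermat.Agent.H43.Cft Fermat.Agent.H97

universe u v

section

variable {K : Type u} [Field K] [NumberField K] {L : Type v} [Field L] [NumberField L]
  [Algebra K L]

/-- At a nonsplit prime the Galois group acts by isometries. -/
theorem valuation_gal_of_nonsplit (v : HeightOneSpectrum (𝓞 K)) (hns : Nonsplit K L v)
    (w : HeightOneSpectrum (𝓞 L)) (hw : w.under (𝓞 K) = v) (σ : L ≃ₐ[K] L) (x : L) :
    w.valuation L (σ • x) = w.valuation L x := by
  have h1 : primeComap (galInt σ) w = w :=
    hns _ _ ((Fermat.Agent.H97.under_galPrime σ w).trans hw) hw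
  have h2 := Fermat.Agent.H97.valuation_galPrime σ w x
  rw [h1] at h2
  exact h2.symm

/-- **The nonsplit case**: the local norms have index `p`. -/
theorem index_locNorm_of_nonsplit [IsGalois K L] (p : ℕ) (hp : p.Prime)
    (hdeg : Module.finrank K L = p) (v : HeightOneSpectrum (𝓞 K)) (hns : Nonsplit K L v) :
    (locNorm K L v).index = p := by
  classical
  obtain ⟨w, hw⟩ := exists_prime_above (L := L) v
  have hinv := valuation_gal_of_nonsplit v hns w hw
  letI act : MulSemiringAction (L ≃ₐ[K] L) (w.adicCompletion L) := adicAction w hinv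
  haveI hfaith : FaithfulSMul (L ≃ₐ[K] L) (w.adicCompletion L) := faithful_adicAction w hinv
  set val : Valuation (w.adicCompletion L) ℤᵐ⁰ := Valued.v with hval
  have hvinv : ∀ (g : L ≃ₐ[K] L) (x : w.adicCompletion L), val (g • x) = val x :=
    fun g x => valued_adicAction w hinv g x
  obtain ⟨e, he0, hpow⟩ := exists_valuation_pow v w hw
  have hvalι : ∀ y : L, val (algebraMap L (w.adicCompletion L) y) = w.valuation L y :=
    fun y => HeightOneSpectrum.valuedAdicCompletion_eq_valuation' w y
  have hequiv : ∀ (g : L ≃ₐ[K] L) (y : L),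
      algebraMap L (w.adicCompletion L) (g y) = g • algebraMap L (w.adicCompletion L) y :=
    fun g y => (adicAction_algebraMap w hinv g y).symm
  -- a nontrivial value on the fixed field
  have hnt : ∃ c ∈ FixedPoints.subfield (L ≃ₐ[K] L) (w.adicCompletion L), c ≠ 0 ∧ val c < 1 := by
    obtain ⟨π, hπ⟩ := v.valuation_exists_uniformizer K
    have hπ0 : π ≠ 0 := by
      intro h0
      rw [h0, map_zero] at hπ
      exact exp_ne_zero hπ.symm
    refine ⟨algebraMap L (w.adicCompletion L) (algebraMap K L π), fun g => ?_, ?_, ?_⟩
    · rw [← hequiv, g.commutes]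
    · rw [Ne, map_eq_zero, map_eq_zero]; exact hπ0
    · rw [hvalι, hpow, hπ, ← exp_nsmul, ← exp_zero, exp_lt_exp, nsmul_eq_mul]
      have : (0 : ℤ) < e := by exact_mod_cast Nat.pos_of_ne_zero he0
      nlinarith
  -- the local datum
  haveI hfinq : Finite (𝓞 L ⧸ w.asIdeal) := w.asIdeal.finiteQuotientOfFreeOfNeBot w.ne_bot
  have hdatum : Fermat.Agent.H78.CFT.LocalNormDatum
      (FixedPoints.subfield (L ≃ₐ[K] L) (w.adicCompletion L)) (w.adicCompletion L) val :=
    localNormDatum_fixed val hvinv (henselian_adic w)
      (Fermat.Agent.H30.finite_residueField_adicCompletionIntegers w)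
      (HeightOneSpectrum.valuedAdicCompletion_surjective L w) hnt
  have hcard : Nat.card (L ≃ₐ[K] L) = p := (IsGalois.card_aut_eq_finrank K L).trans hdeg
  haveI hcyc : IsCyclic (w.adicCompletion L ≃ₐ[FixedPoints.subfield (L ≃ₐ[K] L)
      (w.adicCompletion L)] w.adicCompletion L) := isCyclic_fixed (by rw [hcard]; exact hp)
  have hidx := Fermat.Agent.H78.CFT.normSubgroup_indexU hdatum
  obtain ⟨δ, hδ0, hδ⟩ := Fermat.Agent.H78.CFT.exists_norm_nhds hdatum
  obtain ⟨δ', hδ'0, hδ'1, hδ'2⟩ := exists_lt_bounds hδ0 (exp_ne_zero (a := (-1 : ℤ)))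
  -- the bridge
  have hB : BridgeHyp v val (algebraMap L (w.adicCompletion L)) :=
    { equiv := hequiv
      inv := hvinv
      pow := ⟨e, he0, fun x => by rw [hvalι, hpow]⟩
      dense := fun x γ hγ => adic_dense w x hγ
      opn := by
        refine ⟨δ', hδ'0, fun u hu => ?_⟩
        have hlt : val ((u : w.adicCompletion L) - 1) < 1 :=
          lt_of_le_of_lt (hu.trans hδ'2) (by rw [← exp_zero, exp_lt_exp]; omega)
        have hu1 : val (u : w.adicCompletion L) = 1 := by
          have := Valuation.map_one_add_of_lt (v := val) hlt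
          rwa [add_sub_cancel] at this
        have hu0 : u ≠ 0 := by
          intro h0
          rw [h0] at hu1
          simp at hu1
        obtain ⟨z, hz⟩ := hδ (Units.mk0 u hu0) (by
          rw [Units.val_mk0, map_sub, map_one]
          exact hu.trans hδ'1)
        refine ⟨(z : w.adicCompletion L), Units.ne_zero z, ?_⟩
        exact congrArg (fun t : (FixedPoints.subfield (L ≃ₐ[K] L) (w.adicCompletion L))ˣ =>
          (t : FixedPoints.subfield (L ≃ₐ[K] L) (w.adicCompletion L))) hz }
  rw [index_locNorm_eq hB, hidx, FixedPoints.finrank_eq_card, ← Nat.card_eq_fintype_card, hcard]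

end

/-- **G-LOC: the local norm index statement in approximation form.** -/
theorem localNormIndex : LocalNormIndexStatement.{u, v} := by
  intro K _ _ L _ _ _ _ p hp hdeg v
  exact ⟨fun hns => index_locNorm_of_nonsplit p hp hdeg v hns,
    fun hs => locNorm_eq_top_of_split p hp hdeg v hs⟩

/-- The weak form used by the first inequality. -/
theorem localNormIndexGe : LocalNormIndexGeStatement.{u, v} :=
  localNormIndexGe_of_localNormIndex localNormIndex

end Fermat.Agent.H88.Cft

end
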