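/-
P-CFT / BRAUER-S block, row 924 BS-1 (helper88): `KummerRootQSStatement`.

For `p ∈ S`, a `p^a`-th root of an element of `ℚ_S` whose values outside `S` are `p^a`-th powers
of values of elements of `ℚ_S` lies in `ℚ_S`.
-/
import Fermat.Agent.H76.Cft.BrauerSInterfaces
import Fermat.Agent.H96.Cft.KummerDivisible

set_option autoImplicit false

noncomputable section

namespace Fermat.Agent.H88.Cft

open Fermat.Agent.H76.Cft Fermat.Agent.H54.Cft Fermat.Agent.H96.Cft

local notation "Qb" => AlgebraicClosure ℚ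

/-- **[B1]** Kummer roots stay in `ℚ_S`. -/
theorem kummerRootQS : KummerRootQSStatement := by
  intro p _ S hpS a x y hxy hxQ hpow
  have hp : p.Prime := Fact.out
  have hn0 : p ^ a ≠ 0 := pow_ne_zero a hp.ne_zero
  have hF : (IntermediateField.adjoin ℚ {(y : Qb)}).IsUnramifiedOutside S := by
    refine ⟨IntermediateField.adjoin.finiteDimensional
        ((AlgebraicClosure.isAlgebraic ℚ).isAlgebraic (y : Qb)).isIntegral,
      fun q hq A hA σ hσ => ?_⟩
    apply mem_fixingSubgroup_adjoin_simple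
    obtain ⟨z, hzQ, hw1, hw2⟩ := hpow A ⟨q, hq, hA⟩
    have hx_fix : σ (x : Qb) = x := apply_eq_of_mem_QS hq hA hσ hxQ
    have hz_fix : σ (z : Qb) = z := apply_eq_of_mem_QS hq hA hσ hzQ
    have hy0 : (y : Qb) ≠ 0 := y.ne_zero
    have hz0 : (z : Qb) ≠ 0 := z.ne_zero
    have hx0 : (x : Qb) ≠ 0 := x.ne_zero
    have hxy' : (y : Qb) ^ (p ^ a) = x := by
      rw [← Units.val_pow_eq_pow_val, hxy]
    -- `y₁ = y / z`
    set y₁ : Qb := (y : Qb) / z with hy₁
    have hy₁0 : y₁ ≠ 0 := div_ne_zero hy0 hz0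
    have hw1' : (x : Qb) / (z : Qb) ^ (p ^ a) ∈ A := by
      have e : ((x / z ^ (p ^ a) : Qbˣ) : Qb) = (x : Qb) / (z : Qb) ^ (p ^ a) := by
        rw [Units.val_div_eq_div_val, Units.val_pow_eq_pow_val]
      rw [← e]
      exact hw1
    have hw2' : ((x : Qb) / (z : Qb) ^ (p ^ a))⁻¹ ∈ A := by
      have e : (((x / z ^ (p ^ a))⁻¹ : Qbˣ) : Qb) = ((x : Qb) / (z : Qb) ^ (p ^ a))⁻¹ := by
        rw [Units.val_inv_eq_inv_val, Units.val_div_eq_div_val, Units.val_pow_eq_pow_val]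
      rw [← e]
      exact hw2
    have hy₁pow : y₁ ^ (p ^ a) = (x : Qb) / (z : Qb) ^ (p ^ a) := by
      rw [hy₁, div_pow, hxy']
    have hy₁A : y₁ ∈ A := mem_of_pow_mem A hn0 (by rw [hy₁pow]; exact hw1')
    have hy₁invA : y₁⁻¹ ∈ A := mem_of_pow_mem A hn0 (by rw [inv_pow, hy₁pow]; exact hw2')
    have hσy₁pow : (σ y₁) ^ (p ^ a) = y₁ ^ (p ^ a) := by
      rw [← map_pow, hy₁pow, map_div₀, map_pow, hx_fix, hz_fix]
    have hζp : (σ y₁ * y₁⁻¹) ^ (p ^ a) = 1 := by
      rw [mul_pow, hσy₁pow, inv_pow, mul_inv_cancel₀ (pow_ne_zero _ hy₁0)]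
    have hζ1 : σ y₁ * y₁⁻¹ - 1 ∈ A.nonunits := by
      have e : σ y₁ * y₁⁻¹ - 1 = (σ y₁ - y₁) * y₁⁻¹ := by
        rw [sub_mul, mul_inv_cancel₀ hy₁0]
      rw [e]
      exact nonunits_mul_mem_right A (apply_sub_mem_nonunits_of_mem_inertia hσ hy₁A) hy₁invA
    have hpq : Nat.Coprime (p ^ a) (q : ℕ) := by
      apply Nat.Coprime.pow_left
      rw [Nat.coprime_primes hp q.2]
      rintro rfl
      apply hq
      have : ExtCitation.pPrime (q : ℕ) = q := Subtype.ext rfl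
      rw [← this]
      exact hpS
    have hpA : ((p ^ a : ℕ) : Qb) ∉ A.nonunits := natCast_not_mem_nonunits A hpq hA
    have h1 := eq_one_of_pow_eq_one_of_sub_mem_nonunits A hpA hζp hζ1
    have h2 : σ y₁ = y₁ := by
      have := congrArg (· * y₁) h1
      simp only [inv_mul_cancel_right₀ hy₁0, one_mul] at this
      exact this
    have h3 : (y : Qb) = y₁ * z := by
      rw [hy₁, div_mul_cancel₀ _ hz0]
    rw [h3, map_mul, h2, hz_fix]
  exact (le_iSup (fun F : {F : IntermediateField ℚ Qb // F.IsUnramifiedOutside S} => F.1)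
    ⟨_, hF⟩) (IntermediateField.mem_adjoin_simple_self ℚ _)

end Fermat.Agent.H88.Cft

end
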