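/-
P-CFT / [GA'] block, row 938 GA-COF (helper88), part 2: the fields.

* `cycField p m = ℚ(μ_{p^m})`, `layerField K₀ p m` = (normal closure of `K₀`)`(μ_{p^m})`:
  finite over `ℚ`, stable under `G_ℚ`, inside `ℚ_S` (if `K₀` is and `p ∈ S`);
* every place of `ℚ̄` over `p` is conjugate to `padicPlace p`.
-/
import Fermat.Agent.H76.Cft.PairInterfaces
import Fermat.Agent.H96.Cft.KummerDivisible
import Fermat.Agent.H53.S14T.Profinite
import Fermat.Agent.H81.Local.Dense
import Fermat.Agent.H81.Cyclo.Roots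

set_option autoImplicit false
set_option linter.unusedSectionVars false
set_option linter.style.haveILetI false

noncomputable section

namespace Fermat.Agent.H88.Cft

open Polynomial
open Fermat.Agent.H76.Cft Fermat.Agent.H54.Cft Fermat.Agent.H96.Cft
open scoped Pointwise

local notation "Qb" => AlgebraicClosure ℚ

/-! ### Generalities -/

theorem cof_isIntegral (x : Qb) : IsIntegral ℚ x :=
  ((AlgebraicClosure.isAlgebraic ℚ).isAlgebraic x).isIntegral

theorem cof_normal : Normal ℚ Qb :=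
  (Fermat.Agent.H53.isGalois_algebraicClosure_rat).to_normal

/-- membership in the fixing subgroup of a generated field -/
theorem mem_fixingSubgroup_adjoin_iff (T : Set Qb) (g : Qb ≃ₐ[ℚ] Qb) :
    g ∈ (IntermediateField.adjoin ℚ T).fixingSubgroup ↔ ∀ t ∈ T, g t = t := by
  constructor
  · intro h t ht
    exact (IntermediateField.mem_fixingSubgroup_iff _ g).mp h t
      (IntermediateField.subset_adjoin ℚ T ht)
  · intro h
    have hle : IntermediateField.adjoin ℚ T ≤
        IntermediateField.fixedField (Subgroup.zpowers g) := by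
      rw [IntermediateField.adjoin_le_iff]
      intro z hz
      rw [SetLike.mem_coe, IntermediateField.mem_fixedField_iff]
      rintro f hf
      obtain ⟨k, rfl⟩ := Subgroup.mem_zpowers_iff.mp hf
      have hfix : g ∈ MulAction.stabilizer (Qb ≃ₐ[ℚ] Qb) z := h z hz
      exact (MulAction.stabilizer (Qb ≃ₐ[ℚ] Qb) z).zpow_mem hfix k
    exact (IntermediateField.le_iff_le _ _).mp hle (Subgroup.mem_zpowers g)

/-- a finite subfield of `ℚ_S` is unramified outside `S` -/
theorem isUnramifiedOutside_of_le_QS {S : Finset Nat.Primes} {F : IntermediateField ℚ Qb}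
    (hfd : FiniteDimensional ℚ F) (hle : F ≤ QS S) : F.IsUnramifiedOutside S := by
  refine ⟨hfd, fun q hq A hA σ hσ => ?_⟩
  rw [IntermediateField.mem_fixingSubgroup_iff]
  intro x hx
  exact apply_eq_of_mem_QS hq hA hσ (hle hx)

theorem le_QS_of_isUnramifiedOutside {S : Finset Nat.Primes} {F : IntermediateField ℚ Qb}
    (hF : F.IsUnramifiedOutside S) : F ≤ QS S :=
  le_iSup (fun F : {F : IntermediateField ℚ Qb // F.IsUnramifiedOutside S} => F.1) ⟨F, hF⟩

/-- roots of unity of `p`-power order lie in `ℚ_S` when `p ∈ S` -/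
theorem rootOfUnity_mem_QS {p : ℕ} [Fact p.Prime] {S : Finset Nat.Primes}
    (hpS : ExtCitation.pPrime p ∈ S) {m : ℕ} {t : Qb} (ht : t ^ (p ^ m) = 1) : t ∈ QS S := by
  have hp : p.Prime := Fact.out
  have hF : (IntermediateField.adjoin ℚ {t}).IsUnramifiedOutside S := by
    refine ⟨IntermediateField.adjoin.finiteDimensional (cof_isIntegral t),
      fun q hq A hA σ hσ => ?_⟩
    apply mem_fixingSubgroup_adjoin_simple
    have hqp : ¬ (q : ℕ) ∣ p ^ m := by
      intro h
      have h1 := (Nat.prime_dvd_prime_iff_eq q.2 hp).mp (q.2.dvd_of_dvd_pow h)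
      apply hq
      have : q = ExtCitation.pPrime p := Subtype.ext h1
      rw [this]
      exact hpS
    exact Fermat.Agent.H81.Cyclo.inertia_root_of_unity q.2 hA hσ hqp ht
  exact le_QS_of_isUnramifiedOutside hF (IntermediateField.mem_adjoin_simple_self ℚ t)

/-! ### The cyclotomic fields -/

/-- `ℚ(μ_{p^m})` -/
def cycField (p m : ℕ) : IntermediateField ℚ Qb :=
  IntermediateField.adjoin ℚ {t : Qb | t ^ (p ^ m) = 1}

theorem cof_finite_rootSet {n : ℕ} (hn : 0 < n) : {t : Qb | t ^ n = 1}.Finite := by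
  have h : {t : Qb | t ^ n = 1} =
      ((Polynomial.nthRootsFinset n (1 : Qb) : Finset Qb) : Set Qb) := by
    ext t
    rw [Finset.mem_coe, Polynomial.mem_nthRootsFinset hn]
    rfl
  rw [h]
  exact Finset.finite_toSet _

theorem cycField_finiteDimensional {p : ℕ} (hp : 0 < p) (m : ℕ) :
    FiniteDimensional ℚ (cycField p m) := by
  haveI : Finite {t : Qb | t ^ (p ^ m) = 1} := (cof_finite_rootSet (pow_pos hp m)).to_subtype
  exact IntermediateField.finiteDimensional_adjoin (fun x _ => cof_isIntegral x)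

theorem cycField_le_QS {p : ℕ} [Fact p.Prime] {S : Finset Nat.Primes}
    (hpS : ExtCitation.pPrime p ∈ S) (m : ℕ) : cycField p m ≤ QS S := by
  rw [cycField, IntermediateField.adjoin_le_iff]
  intro t ht
  exact rootOfUnity_mem_QS hpS ht

theorem mem_cycField {p m : ℕ} {t : Qb} (ht : t ^ (p ^ m) = 1) : t ∈ cycField p m :=
  IntermediateField.subset_adjoin ℚ _ ht

theorem mem_fixingSubgroup_cycField_iff (p m : ℕ) (g : Qb ≃ₐ[ℚ] Qb) :
    g ∈ (cycField p m).fixingSubgroup ↔ ∀ t : Qb, t ^ (p ^ m) = 1 → g t = t :=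
  mem_fixingSubgroup_adjoin_iff _ g

/-- `G_ℚ`-stability of a field generated by a stable set, in comap form -/
theorem adjoin_stable {T : Set Qb} (hT : ∀ (g : Qb ≃ₐ[ℚ] Qb), ∀ t ∈ T, g t ∈ T)
    (g : Qb ≃ₐ[ℚ] Qb) {x : Qb} (hx : x ∈ IntermediateField.adjoin ℚ T) :
    g x ∈ IntermediateField.adjoin ℚ T := by
  have hle : IntermediateField.adjoin ℚ T ≤
      (IntermediateField.adjoin ℚ T).comap (g : Qb →ₐ[ℚ] Qb) := by
    rw [IntermediateField.adjoin_le_iff]
    intro t ht
    exact IntermediateField.subset_adjoin ℚ T (hT g t ht)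
  exact hle hx

theorem cycField_stable (p m : ℕ) (g : Qb ≃ₐ[ℚ] Qb) {x : Qb} (hx : x ∈ cycField p m) :
    g x ∈ cycField p m := by
  refine adjoin_stable (fun g t ht => ?_) g hx
  show (g t) ^ (p ^ m) = 1
  rw [← map_pow, show t ^ (p ^ m) = 1 from ht, map_one]

/-! ### The normal closure -/

/-- the normal closure of `K₀` in `ℚ̄` -/
def nclField (K₀ : IntermediateField ℚ Qb) : IntermediateField ℚ Qb :=
  IntermediateField.normalClosure ℚ K₀ Qb

theorem le_nclField (K₀ : IntermediateField ℚ Qb) : K₀ ≤ nclField K₀ :=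
  IntermediateField.le_normalClosure K₀

theorem nclField_finiteDimensional (K₀ : IntermediateField ℚ Qb) [FiniteDimensional ℚ K₀] :
    FiniteDimensional ℚ (nclField K₀) :=
  normalClosure.is_finiteDimensional ℚ K₀ Qb

theorem nclField_stable (K₀ : IntermediateField ℚ Qb) (g : Qb ≃ₐ[ℚ] Qb) {x : Qb}
    (hx : x ∈ nclField K₀) : g x ∈ nclField K₀ := by
  haveI := cof_normal
  have hN : Normal ℚ (nclField K₀) := normalClosure.normal ℚ K₀ Qb
  have h := (IntermediateField.normal_iff_forall_map_le' (K := nclField K₀)).mp hN g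
  exact h ((IntermediateField.mem_map _).mpr ⟨x, hx, rfl⟩)

theorem nclField_le_QS {S : Finset Nat.Primes} {K₀ : IntermediateField ℚ Qb}
    (hK₀ : K₀.IsUnramifiedOutside S) : nclField K₀ ≤ QS S := by
  haveI := cof_normal
  rw [nclField, normalClosure_le_iff]
  rintro f y ⟨x, rfl⟩
  have hx : (x : Qb) ∈ QS S := le_QS_of_isUnramifiedOutside hK₀ x.2
  have halg : IsAlgebraic ℚ (x : Qb) := (AlgebraicClosure.isAlgebraic ℚ).isAlgebraic _
  have hroot : aeval (f x) (minpoly ℚ (x : Qb)) = 0 := by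
    have h1 : aeval (f x) (minpoly ℚ x) = 0 := by
      rw [aeval_algHom_apply, minpoly.aeval, map_zero]
    have h2 : minpoly ℚ x = minpoly ℚ (x : Qb) := IntermediateField.minpoly_eq x
    rw [← h2]
    exact h1
  obtain ⟨σ, hσ⟩ := minpoly.exists_algEquiv_of_root' halg hroot
  show f x ∈ QS S
  rw [← hσ]
  exact apply_mem_QS S σ hx

/-! ### The layers -/

/-- the field `(normal closure of K₀)(μ_{p^m})` -/
def layerField (K₀ : IntermediateField ℚ Qb) (p m : ℕ) : IntermediateField ℚ Qb :=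
  nclField K₀ ⊔ cycField p m

theorem le_layerField (K₀ : IntermediateField ℚ Qb) (p m : ℕ) : K₀ ≤ layerField K₀ p m :=
  (le_nclField K₀).trans le_sup_left

theorem layerField_finiteDimensional (K₀ : IntermediateField ℚ Qb) [FiniteDimensional ℚ K₀]
    {p : ℕ} (hp : 0 < p) (m : ℕ) : FiniteDimensional ℚ (layerField K₀ p m) := by
  haveI := nclField_finiteDimensional K₀
  haveI := cycField_finiteDimensional hp m
  exact IntermediateField.finiteDimensional_sup _ _

theorem layerField_le_QS {p : ℕ} [Fact p.Prime] {S : Finset Nat.Primes}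
    (hpS : ExtCitation.pPrime p ∈ S) {K₀ : IntermediateField ℚ Qb}
    (hK₀ : K₀.IsUnramifiedOutside S) (m : ℕ) : layerField K₀ p m ≤ QS S :=
  sup_le (nclField_le_QS hK₀) (cycField_le_QS hpS m)

theorem layerField_isUnramifiedOutside {p : ℕ} [Fact p.Prime] {S : Finset Nat.Primes}
    (hpS : ExtCitation.pPrime p ∈ S) {K₀ : IntermediateField ℚ Qb}
    (hK₀ : K₀.IsUnramifiedOutside S) (m : ℕ) : (layerField K₀ p m).IsUnramifiedOutside S := by
  haveI := hK₀.1
  exact isUnramifiedOutside_of_le_QS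
    (layerField_finiteDimensional K₀ (Fact.out : p.Prime).pos m) (layerField_le_QS hpS hK₀ m)

theorem layerField_stable (K₀ : IntermediateField ℚ Qb) (p m : ℕ) (g : Qb ≃ₐ[ℚ] Qb) {x : Qb}
    (hx : x ∈ layerField K₀ p m) : g x ∈ layerField K₀ p m := by
  have hle : layerField K₀ p m ≤ (layerField K₀ p m).comap (g : Qb →ₐ[ℚ] Qb) := by
    refine sup_le (fun y hy => ?_) (fun y hy => ?_)
    · exact (le_sup_left : nclField K₀ ≤ layerField K₀ p m) (nclField_stable K₀ g hy)
    · exact (le_sup_right : cycField p m ≤ layerField K₀ p m) (cycField_stable p m g hy)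
  exact hle hx

theorem mem_fixingSubgroup_layerField_iff (K₀ : IntermediateField ℚ Qb) (p m : ℕ)
    (g : Qb ≃ₐ[ℚ] Qb) :
    g ∈ (layerField K₀ p m).fixingSubgroup ↔
      g ∈ (nclField K₀).fixingSubgroup ∧ ∀ t : Qb, t ^ (p ^ m) = 1 → g t = t := by
  rw [layerField, IntermediateField.fixingSubgroup_sup, Subgroup.mem_inf,
    mem_fixingSubgroup_cycField_iff]

/-! ### Conjugacy of the places over `p` -/

/-- An integer prime to `ℓ` is a unit in a valuation subring over `ℓ`. -/
theorem cof_valuation_intCast_eq_one (B : ValuationSubring Qb) {ℓ : ℕ} (hℓ : ℓ.Prime)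
    (hB : B.LiesOverPrime ℓ) {n : ℤ} (hn : ¬ (ℓ : ℤ) ∣ n) : B.valuation (n : Qb) = 1 := by
  have hle : B.valuation (n : Qb) ≤ 1 := (B.valuation_le_one_iff _).mpr (intCast_mem B n)
  refine le_antisymm hle (not_lt.mp fun hlt => ?_)
  have hcop : IsCoprime (ℓ : ℤ) n :=
    (Int.isCoprime_iff_gcd_eq_one).mpr
      (Nat.Coprime.gcd_eq_one ((Nat.Prime.coprime_iff_not_dvd hℓ).mpr
        (fun h => hn (Int.natCast_dvd.mpr h))))
  obtain ⟨u, w, huw⟩ := hcop
  have h1 : ((u : Qb) * (ℓ : Qb) + (w : Qb) * (n : Qb)) = 1 := by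
    exact_mod_cast congrArg (Int.cast (R := Qb)) huw
  have hu : B.valuation (u : Qb) ≤ 1 := (B.valuation_le_one_iff _).mpr (intCast_mem B u)
  have hw : B.valuation (w : Qb) ≤ 1 := (B.valuation_le_one_iff _).mpr (intCast_mem B w)
  have hℓ1 : B.valuation (ℓ : Qb) < 1 := (B.mem_nonunits_iff).mp hB
  have h2 : B.valuation ((u : Qb) * (ℓ : Qb) + (w : Qb) * (n : Qb)) < 1 := by
    refine lt_of_le_of_lt (B.valuation.map_add _ _) (max_lt ?_ ?_)
    · rw [map_mul]
      exact lt_of_le_of_lt (mul_le_of_le_one_left' hu) hℓ1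
    · rw [map_mul]
      exact lt_of_le_of_lt (mul_le_of_le_one_left' hw) hlt
  rw [h1, map_one] at h2
  exact lt_irrefl _ h2

/-- A rational number lies in a valuation subring over `ℓ` iff `ℓ` does not divide its
denominator. -/
theorem cof_ratCast_mem_iff (B : ValuationSubring Qb) {ℓ : ℕ} (hℓ : ℓ.Prime)
    (hB : B.LiesOverPrime ℓ) (r : ℚ) : ((r : ℚ) : Qb) ∈ B ↔ ¬ ℓ ∣ r.den := by
  have hr : ((r : ℚ) : Qb) = (r.num : Qb) / (r.den : Qb) := by
    rw [Rat.cast_def]
  have hden0 : ((r.den : ℕ) : Qb) ≠ 0 := by exact_mod_cast r.den_nz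
  constructor
  · intro hmem hdvd
    have hnum : ¬ (ℓ : ℤ) ∣ r.num := by
      intro h
      have h1 : ℓ ∣ r.num.natAbs := Int.natCast_dvd.mp h
      have h2 : ℓ ∣ Nat.gcd r.num.natAbs r.den := Nat.dvd_gcd h1 hdvd
      rw [r.reduced] at h2
      exact hℓ.one_lt.ne' (Nat.dvd_one.mp h2)
    have hv1 := cof_valuation_intCast_eq_one B hℓ hB hnum
    have hvden : B.valuation ((r.den : ℕ) : Qb) < 1 := by
      obtain ⟨k, hk⟩ := hdvd
      rw [hk, Nat.cast_mul, map_mul]
      have hℓ1 : B.valuation (ℓ : Qb) < 1 := (B.mem_nonunits_iff).mp hB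
      have hk1 : B.valuation (k : Qb) ≤ 1 := (B.valuation_le_one_iff _).mpr (natCast_mem B k)
      exact lt_of_le_of_lt (mul_le_of_le_one_right' hk1) hℓ1
    have hvr : B.valuation ((r : ℚ) : Qb) ≤ 1 := (B.valuation_le_one_iff _).mpr hmem
    have hmul : B.valuation ((r : ℚ) : Qb) * B.valuation ((r.den : ℕ) : Qb) = 1 := by
      rw [← map_mul, hr, div_mul_cancel₀ _ hden0, hv1]
    have : B.valuation ((r : ℚ) : Qb) * B.valuation ((r.den : ℕ) : Qb) < 1 :=
      lt_of_le_of_lt (mul_le_of_le_one_left' hvr) hvden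
    rw [hmul] at this
    exact lt_irrefl _ this
  · intro hndvd
    have hden : ¬ (ℓ : ℤ) ∣ (r.den : ℤ) := fun h => hndvd (Int.natCast_dvd_natCast.mp h)
    have hv1 := cof_valuation_intCast_eq_one B hℓ hB hden
    rw [Int.cast_natCast] at hv1
    rw [← B.valuation_le_one_iff, hr, map_div₀, hv1, div_one]
    exact (B.valuation_le_one_iff _).mpr (intCast_mem B r.num)

/-- Membership in the decomposition group of a valuation subring. -/
theorem cof_mem_decompositionSubgroup_iff (B : ValuationSubring Qb) (σ : Qb ≃ₐ[ℚ] Qb) :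
    σ ∈ B.decompositionSubgroup ℚ ↔ ∀ x : Qb, σ x ∈ B ↔ x ∈ B := by
  rw [ValuationSubring.decompositionSubgroup, MulAction.mem_stabilizer_iff]
  constructor
  · intro h x
    have h1 : σ x ∈ σ • B ↔ σ x ∈ B := by rw [h]
    rw [← h1, ValuationSubring.mem_pointwise_smul_iff_inv_smul_mem]
    have e : σ⁻¹ • σ x = x := by
      change (σ⁻¹ * σ) x = x
      rw [inv_mul_cancel]
      rfl
    rw [e]
  · intro h
    ext y
    rw [ValuationSubring.mem_pointwise_smul_iff_inv_smul_mem]
    have h1 := h (σ⁻¹ • y)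
    have e : σ (σ⁻¹ • y) = y := by
      change (σ * σ⁻¹) y = y
      rw [mul_inv_cancel]
      rfl
    rw [e] at h1
    exact h1.symm

/-- Every place of `ℚ̄` over `p` is conjugate to the standard place. -/
theorem exists_conj_padicPlace (p : ℕ) [Fact p.Prime] (A : ValuationSubring Qb)
    (hA : A.LiesOverPrime p) :
    ∃ ρ : Qb ≃ₐ[ℚ] Qb, ∀ x : Qb, x ∈ A ↔ ρ x ∈ padicPlace p := by
  have hp : p.Prime := Fact.out
  have hA₀ : (padicPlace p).LiesOverPrime p := Fermat.Agent.H81.Local.padicPlace_liesOverPrime p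
  have hAA' : ∀ y ∈ (⊥ : IntermediateField ℚ Qb), y ∈ A ↔ y ∈ padicPlace p := by
    intro y hy
    obtain ⟨r, rfl⟩ := IntermediateField.mem_bot.1 hy
    have e : algebraMap ℚ Qb r = ((r : ℚ) : Qb) := (eq_ratCast _ r)
    rw [e, cof_ratCast_mem_iff A hp hA, cof_ratCast_mem_iff _ hp hA₀]
  obtain ⟨ρ, -, hρ⟩ := Fermat.Agent.H53.transitiveStatement ⊥ (padicPlace p) A p hp hA₀ hAA'
  exact ⟨ρ, hρ⟩

/-- conjugation of decomposition groups -/
theorem conj_mem_decompositionSubgroup {A A' : ValuationSubring Qb} {ρ : Qb ≃ₐ[ℚ] Qb}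
    (hρ : ∀ x : Qb, x ∈ A ↔ ρ x ∈ A') {d : Qb ≃ₐ[ℚ] Qb}
    (hd : d ∈ A'.decompositionSubgroup ℚ) : ρ⁻¹ * d * ρ ∈ A.decompositionSubgroup ℚ := by
  have hd' := (cof_mem_decompositionSubgroup_iff A' d).1 hd
  rw [cof_mem_decompositionSubgroup_iff]
  intro x
  have e : ρ ((ρ⁻¹ * d * ρ) x) = d (ρ x) := by
    change (ρ * (ρ⁻¹ * d * ρ)) x = (d * ρ) x
    rw [← mul_assoc, ← mul_assoc, mul_inv_cancel, one_mul]
  rw [hρ, e, hd', ← hρ]

end Fermat.Agent.H88.Cft

end
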