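/-
P-CFT / [GA'] block, row 938 GA-COF (helper88), part 1: the local cyclotomic input.

* `irreducible_cyclotomic_padic`: `Φ_{p^(k+1)}` is irreducible over `ℚ_p` (Eisenstein);
* `exists_decomp_pow`: for a primitive `p^m`-th root of unity `ζ ∈ ℚ̄` and `c` prime to `p` there
  is `d` in the decomposition group of `padicPlace p` with `d ζ = ζ ^ c`
  (`p` is totally ramified in `ℚ(ζ_{p^m})`).
-/
import Mathlib
import Fermat.Prelude.Def_GaloisRep_CompletionBridge

set_option autoImplicit false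

noncomputable section

namespace Fermat.Agent.H88.Cft

open Polynomial

local notation "Qb" => AlgebraicClosure ℚ

variable (p : ℕ) [hp : Fact p.Prime]

theorem cof_monic_comp (R : Type) [CommRing R] [Nontrivial R] (n : ℕ) :
    ((cyclotomic n R).comp (X + 1)).Monic := by
  rw [show (X + 1 : R[X]) = X + C 1 by simp]
  refine (cyclotomic.monic _ R).comp (monic_X_add_C 1) fun h => ?_
  rw [natDegree_X_add_C] at h
  exact zero_ne_one h.symm

/-- Eisenstein at `p` over `ℤ_p`. -/
theorem cyclotomic_comp_isEisensteinAt_padicInt (k : ℕ) :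
    ((cyclotomic (p ^ (k + 1)) ℤ_[p]).comp (X + 1)).IsEisensteinAt
      (Ideal.span {(p : ℤ_[p])}) := by
  have h := cyclotomic_prime_pow_comp_X_add_one_isEisensteinAt p k
  have hmonic : ((cyclotomic (p ^ (k + 1)) ℤ).comp (X + 1)).Monic := cof_monic_comp ℤ _
  have hmap : (cyclotomic (p ^ (k + 1)) ℤ_[p]).comp (X + 1) =
      ((cyclotomic (p ^ (k + 1)) ℤ).comp (X + 1)).map (Int.castRingHom ℤ_[p]) := by
    rw [Polynomial.map_comp, map_cyclotomic, Polynomial.map_add, map_X, Polynomial.map_one]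
  rw [hmap]
  refine ⟨?_, ?_, ?_⟩
  · rw [(hmonic.map _).leadingCoeff, Ideal.mem_span_singleton]
    intro hdvd
    exact PadicInt.prime_p.not_isUnit (isUnit_of_dvd_one hdvd)
  · intro n hn
    rw [hmonic.natDegree_map] at hn
    rw [coeff_map]
    have h1 := h.mem hn
    rw [Ideal.submodule_span_eq, Ideal.mem_span_singleton] at h1
    obtain ⟨c, hc⟩ := h1
    rw [Ideal.mem_span_singleton, hc]
    exact ⟨(c : ℤ_[p]), by simp⟩
  · rw [coeff_map]
    have h1 := h.notMem
    intro hmem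
    apply h1
    rw [Ideal.submodule_span_eq, Ideal.span_singleton_pow, Ideal.mem_span_singleton]
    rw [Ideal.span_singleton_pow, Ideal.mem_span_singleton] at hmem
    have h2 := (PadicInt.pow_p_dvd_int_iff 2 _).mp hmem
    exact_mod_cast h2

/-- `Φ_{p^(k+1)}` is irreducible over `ℚ_p`. -/
theorem irreducible_cyclotomic_padic (k : ℕ) : Irreducible (cyclotomic (p ^ (k + 1)) ℚ_[p]) := by
  have hE := cyclotomic_comp_isEisensteinAt_padicInt p k
  have hmonic : ((cyclotomic (p ^ (k + 1)) ℤ_[p]).comp (X + 1)).Monic := cof_monic_comp _ _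
  have hprime : (Ideal.span {(p : ℤ_[p])}).IsPrime :=
    (Ideal.span_singleton_prime PadicInt.prime_p.ne_zero).mpr PadicInt.prime_p
  have hdeg : 0 < ((cyclotomic (p ^ (k + 1)) ℤ_[p]).comp (X + 1)).natDegree := by
    rw [natDegree_comp, show (X + 1 : ℤ_[p][X]) = X + C 1 by simp, natDegree_X_add_C, mul_one,
      natDegree_cyclotomic]
    exact Nat.totient_pos.mpr (pow_pos hp.out.pos _)
  have hirr : Irreducible ((cyclotomic (p ^ (k + 1)) ℤ_[p]).comp (X + 1)) :=
    hE.irreducible hprime hmonic.isPrimitive hdeg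
  have h2 := (Monic.irreducible_iff_irreducible_map_fraction_map (K := ℚ_[p]) hmonic).mp hirr
  rw [Polynomial.map_comp, map_cyclotomic, Polynomial.map_add, map_X, Polynomial.map_one] at h2
  have h3 : (algEquivAevalXAddC (1 : ℚ_[p])) (cyclotomic (p ^ (k + 1)) ℚ_[p]) =
      (cyclotomic (p ^ (k + 1)) ℚ_[p]).comp (X + 1) := by
    rw [algEquivAevalXAddC_apply, map_one]
    rfl
  rw [← h3] at h2
  exact (MulEquiv.irreducible_iff (algEquivAevalXAddC (1 : ℚ_[p]))).mp h2

/-- **Total ramification of `p` in `ℚ(ζ_{p^m})`, Galois form.**  Every power map `ζ ↦ ζ ^ c`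
(`c` prime to `p`) on the `p^m`-th roots of unity is induced by an element of the decomposition
group of the standard place over `p`. -/
theorem exists_decomp_pow (m : ℕ) {ζ : Qb} (hζ : IsPrimitiveRoot ζ (p ^ m)) (c : ℕ)
    (hc : c.Coprime p) :
    ∃ d : Qb ≃ₐ[ℚ] Qb, d ∈ (padicPlace p).decompositionSubgroup ℚ ∧ d ζ = ζ ^ c := by
  rcases Nat.eq_zero_or_pos m with rfl | hm
  · rw [pow_zero, IsPrimitiveRoot.one_right_iff] at hζ
    exact ⟨1, Subgroup.one_mem _, by rw [hζ, one_pow]; rfl⟩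
  obtain ⟨k, rfl⟩ : ∃ k, m = k + 1 := ⟨m - 1, by omega⟩
  have hinj : Function.Injective (padicEmbedding p) := (padicEmbedding p).toRingHom.injective
  have hζ' : IsPrimitiveRoot (padicEmbedding p ζ) (p ^ (k + 1)) := hζ.map_of_injective hinj
  have hζc : IsPrimitiveRoot ((padicEmbedding p ζ) ^ c) (p ^ (k + 1)) :=
    hζ'.pow_of_coprime c (Nat.Coprime.pow_right _ hc)
  have hirr := irreducible_cyclotomic_padic p k
  have : NeZero ((p ^ (k + 1) : ℕ) : ℚ_[p]) :=
    ⟨by exact_mod_cast (pow_pos hp.out.pos (k + 1)).ne'⟩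
  have h1 := hζ'.minpoly_eq_cyclotomic_of_irreducible hirr
  have h2 := hζc.minpoly_eq_cyclotomic_of_irreducible hirr
  have hconj : IsConjRoot ℚ_[p] ((padicEmbedding p ζ) ^ c) (padicEmbedding p ζ) := by
    rw [isConjRoot_def, ← h1, ← h2]
  obtain ⟨τ, hτ⟩ := hconj.exists_algEquiv
  refine ⟨localGaloisToGlobal p τ, localGaloisToGlobal_mem_decompositionSubgroup p τ, ?_⟩
  apply hinj
  rw [padicEmbedding_localGaloisToGlobal, hτ, map_pow]

end Fermat.Agent.H88.Cft

end
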