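/-
P-CFT / [GA'] block, row 938 GA-COF (helper88), part 3: `CofLayerStatement`.

`K = (normal closure of K₀)(μ_{p^n})` with `n ≥ 1` maximal such that the decomposition group at
`p` of `K₁ = (normal closure of K₀)(μ_p)` fixes `μ_{p^n}`; `χ` = the Kummer character of
`ζ_{p^(n+1)}` over `K`.
-/
import Fermat.Agent.H76.Cft.PairInterfaces
import Fermat.Agent.H88.Cft.CofLocal
import Fermat.Agent.H88.Cft.CofFields

set_option autoImplicit false
set_option linter.unusedSectionVars false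
set_option linter.style.haveILetI false

noncomputable section

namespace Fermat.Agent.H88.Cft

open Polynomial
open Fermat.Agent.H76.Cft Fermat.Agent.H54.Cft Fermat.Agent.H96.Cft
open scoped Pointwise

local notation "Qb" => AlgebraicClosure ℚ

/-! ### Boundedness -/

/-- `P m`: the decomposition group at `p` of `K₁` fixes `μ_{p^m}`. -/
def FixLevel (K₀ : IntermediateField ℚ Qb) (p : ℕ) [Fact p.Prime] (m : ℕ) : Prop :=
  ∀ d : Qb ≃ₐ[ℚ] Qb, d ∈ (padicPlace p).decompositionSubgroup ℚ →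
    d ∈ (layerField K₀ p 1).fixingSubgroup → ∀ t : Qb, t ^ (p ^ m) = 1 → d t = t

theorem fixLevel_one (K₀ : IntermediateField ℚ Qb) (p : ℕ) [Fact p.Prime] :
    FixLevel K₀ p 1 := by
  intro d _ hd t ht
  exact ((mem_fixingSubgroup_layerField_iff K₀ p 1 d).mp hd).2 t ht

theorem cof_lt_pow (p : ℕ) (hp : 2 ≤ p) (k : ℕ) : k < p ^ k := Nat.lt_pow_self hp

/-- If the decomposition group of `K₁` fixes `μ_{p^m}` then `p^(m-1) ≤ #Hom(K₁, ℚ̄)`. -/
theorem fixLevel_bound (K₀ : IntermediateField ℚ Qb) [FiniteDimensional ℚ K₀] (p : ℕ)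
    [Fact p.Prime] {m : ℕ} (hm : 1 ≤ m) (h : FixLevel K₀ p m) :
    p ^ (m - 1) ≤ Nat.card (layerField K₀ p 1 →ₐ[ℚ] Qb) := by
  have hp : p.Prime := Fact.out
  haveI := layerField_finiteDimensional K₀ hp.pos 1
  obtain ⟨ζ, hζ⟩ := HasEnoughRootsOfUnity.exists_primitiveRoot Qb (p ^ m)
  have hpm : p ^ m = p * p ^ (m - 1) := by
    rw [← pow_succ', Nat.sub_add_cancel hm]
  have hc : ∀ j : Fin (p ^ (m - 1)), (1 + p * (j : ℕ)).Coprime p := fun j => by
    rw [Nat.coprime_add_mul_left_left]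
    exact Nat.coprime_one_left p
  have hlt : ∀ j : Fin (p ^ (m - 1)), 1 + p * (j : ℕ) < p ^ m := fun j => by
    have h1 : (j : ℕ) + 1 ≤ p ^ (m - 1) := j.2
    have h2 : p * ((j : ℕ) + 1) ≤ p * p ^ (m - 1) := Nat.mul_le_mul_left p h1
    have h3 : 2 ≤ p := hp.two_le
    rw [hpm]
    nlinarith
  choose d hdD hdζ using fun j : Fin (p ^ (m - 1)) => exists_decomp_pow p m hζ _ (hc j)
  let F : Fin (p ^ (m - 1)) → (layerField K₀ p 1 →ₐ[ℚ] Qb) := fun j =>
    ((d j : Qb ≃ₐ[ℚ] Qb) : Qb →ₐ[ℚ] Qb).comp (layerField K₀ p 1).val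
  have hF : Function.Injective F := by
    intro j j' hjj'
    have hxx : ∀ x ∈ layerField K₀ p 1, d j x = d j' x := by
      intro x hx
      have := congrArg (fun f : layerField K₀ p 1 →ₐ[ℚ] Qb => f ⟨x, hx⟩) hjj'
      exact this
    have he : (d j)⁻¹ * d j' ∈ (layerField K₀ p 1).fixingSubgroup := by
      rw [IntermediateField.mem_fixingSubgroup_iff]
      intro x hx
      show (d j)⁻¹ (d j' x) = x
      rw [← hxx x hx]
      show ((d j)⁻¹ * d j) x = x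
      rw [inv_mul_cancel]
      rfl
    have heD : (d j)⁻¹ * d j' ∈ (padicPlace p).decompositionSubgroup ℚ :=
      Subgroup.mul_mem _ (Subgroup.inv_mem _ (hdD j)) (hdD j')
    have h1 := h _ heD he ζ (hζ.pow_eq_one)
    have h2 : d j' ζ = d j ζ := by
      have : d j (((d j)⁻¹ * d j') ζ) = d j ζ := by rw [h1]
      have e : d j (((d j)⁻¹ * d j') ζ) = d j' ζ := by
        show (d j * ((d j)⁻¹ * d j')) ζ = d j' ζ
        rw [← mul_assoc, mul_inv_cancel, one_mul]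
      rw [e] at this
      exact this
    rw [hdζ, hdζ] at h2
    have h3 := hζ.pow_inj (hlt j') (hlt j) h2
    have h4 : p * (j' : ℕ) = p * (j : ℕ) := by omega
    have h5 : (j' : ℕ) = (j : ℕ) := Nat.eq_of_mul_eq_mul_left hp.pos h4
    exact (Fin.ext h5).symm
  have := Nat.card_le_card_of_injective F hF
  rwa [Nat.card_eq_fintype_card, Fintype.card_fin] at this

/-- There is a largest level. -/
theorem exists_max_fixLevel (K₀ : IntermediateField ℚ Qb) [FiniteDimensional ℚ K₀] (p : ℕ)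
    [Fact p.Prime] : ∃ n : ℕ, 1 ≤ n ∧ FixLevel K₀ p n ∧ ¬ FixLevel K₀ p (n + 1) := by
  have hp : p.Prime := Fact.out
  by_contra hcon
  push Not at hcon
  have hall : ∀ n : ℕ, 1 ≤ n → FixLevel K₀ p n := by
    intro n hn
    induction n, hn using Nat.le_induction with
    | base => exact fixLevel_one K₀ p
    | succ n hn ih => exact hcon n hn ih
  set B := Nat.card (layerField K₀ p 1 →ₐ[ℚ] Qb) with hB
  have h1 := fixLevel_bound K₀ p (m := B + 1) (by omega) (hall (B + 1) (by omega))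
  rw [Nat.add_sub_cancel] at h1
  have h2 := cof_lt_pow p hp.two_le B
  omega

/-! ### The Kummer character -/

/-- the Kummer character of `ζ` with respect to `ω`: `g ζ = ω ^ (χ g) * ζ` -/
def kumChar (p : ℕ) (ζ ω : Qb) (g : Qb ≃ₐ[ℚ] Qb) : ZMod p :=
  open Classical in
  if h : ∃ c : ZMod p, g ζ = ω ^ c.val * ζ then Classical.choose h else 0

theorem kumChar_eq {p : ℕ} [Fact p.Prime] {ζ ω : Qb} (hω : IsPrimitiveRoot ω p) (hζ0 : ζ ≠ 0)
    {g : Qb ≃ₐ[ℚ] Qb} {c : ZMod p} (h : g ζ = ω ^ c.val * ζ) : kumChar p ζ ω g = c := by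
  haveI : NeZero p := ⟨(Fact.out : p.Prime).ne_zero⟩
  have hex : ∃ c : ZMod p, g ζ = ω ^ c.val * ζ := ⟨c, h⟩
  unfold kumChar
  rw [dif_pos hex]
  have h2 := Classical.choose_spec hex
  have h3 : ω ^ (Classical.choose hex).val = ω ^ c.val :=
    mul_right_cancel₀ hζ0 (h2.symm.trans h)
  have h4 := hω.pow_inj (ZMod.val_lt _) (ZMod.val_lt _) h3
  exact ZMod.val_injective p h4

theorem exists_kum {p : ℕ} [Fact p.Prime] {ζ ω : Qb} (hω : IsPrimitiveRoot ω p) (hζ0 : ζ ≠ 0)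
    {g : Qb ≃ₐ[ℚ] Qb} (hg : g (ζ ^ p) = ζ ^ p) : ∃ c : ZMod p, g ζ = ω ^ c.val * ζ := by
  haveI : NeZero p := ⟨(Fact.out : p.Prime).ne_zero⟩
  have h1 : (g ζ / ζ) ^ p = 1 := by
    rw [div_pow, ← map_pow, hg, div_self (pow_ne_zero _ hζ0)]
  obtain ⟨i, hi, hi'⟩ := hω.eq_pow_of_pow_eq_one h1
  refine ⟨(i : ZMod p), ?_⟩
  rw [ZMod.val_natCast_of_lt hi, hi', div_mul_cancel₀ _ hζ0]

theorem cof_pow_mod {ω : Qb} {p : ℕ} (h : ω ^ p = 1) (x : ℕ) : ω ^ (x % p) = ω ^ x := by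
  conv_rhs => rw [← Nat.div_add_mod x p, pow_add, pow_mul, h, one_pow, one_mul]

theorem kumChar_mul {p : ℕ} [Fact p.Prime] {ζ ω : Qb} (hω : IsPrimitiveRoot ω p) (hζ0 : ζ ≠ 0)
    {σ τ : Qb ≃ₐ[ℚ] Qb} (hσω : σ ω = ω) (hσ : σ (ζ ^ p) = ζ ^ p) (hτ : τ (ζ ^ p) = ζ ^ p) :
    kumChar p ζ ω (σ * τ) = kumChar p ζ ω σ + kumChar p ζ ω τ := by
  haveI : NeZero p := ⟨(Fact.out : p.Prime).ne_zero⟩
  obtain ⟨a, ha⟩ := exists_kum hω hζ0 hσ
  obtain ⟨b, hb⟩ := exists_kum hω hζ0 hτ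
  rw [kumChar_eq hω hζ0 ha, kumChar_eq hω hζ0 hb]
  apply kumChar_eq hω hζ0
  show σ (τ ζ) = _
  rw [hb, map_mul, map_pow, hσω, ha, ZMod.val_add, cof_pow_mod hω.pow_eq_one, pow_add]
  ring

/-! ### The cofinal layer -/

/-- **[COF]** the cofinal cyclotomic layer. -/
theorem cofLayer : CofLayerStatement := by
  intro p _ hp2 S hpS K₀ hK₀
  have hp : p.Prime := Fact.out
  haveI : NeZero p := ⟨hp.ne_zero⟩
  haveI := hK₀.1
  obtain ⟨n, hn1, hPn, hPn1⟩ := exists_max_fixLevel K₀ p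
  -- the witnesses of `¬ P (n + 1)`
  unfold FixLevel at hPn1
  push Not at hPn1
  obtain ⟨d₀, hd₀D, hd₀K1, t₀, ht₀, hd₀t₀⟩ := hPn1
  -- the root of unity
  obtain ⟨ζ, hζ⟩ := HasEnoughRootsOfUnity.exists_primitiveRoot Qb (p ^ (n + 1))
  have hζ0 : ζ ≠ 0 := hζ.ne_zero (pow_pos hp.pos _).ne'
  set ω : Qb := ζ ^ (p ^ n) with hωdef
  have hω : IsPrimitiveRoot ω p :=
    IsPrimitiveRoot.pow (pow_pos hp.pos _) hζ (pow_succ p n)
  have hζp : (ζ ^ p) ^ (p ^ n) = 1 := by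
    rw [← pow_mul, ← pow_succ', hζ.pow_eq_one]
  have hωn : ω ^ (p ^ n) = 1 := by
    have h1 : p ^ n = p * p ^ (n - 1) := by
      rw [← pow_succ', Nat.sub_add_cancel hn1]
    rw [h1, pow_mul, hω.pow_eq_one, one_pow]
  -- the field and the character
  set K := layerField K₀ p n with hK
  have hfixK : ∀ g : Qb ≃ₐ[ℚ] Qb, g ∈ K.fixingSubgroup →
      g ω = ω ∧ g (ζ ^ p) = ζ ^ p := by
    intro g hg
    have h1 := ((mem_fixingSubgroup_layerField_iff K₀ p n g).mp hg).2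
    exact ⟨h1 ω hωn, h1 _ hζp⟩
  -- `d₀ ∈ G_K`
  have hd₀K : d₀ ∈ K.fixingSubgroup := by
    rw [mem_fixingSubgroup_layerField_iff]
    exact ⟨((mem_fixingSubgroup_layerField_iff K₀ p 1 d₀).mp hd₀K1).1,
      fun t ht => hPn d₀ hd₀D hd₀K1 t ht⟩
  refine ⟨K, kumChar p ζ ω, le_layerField K₀ p n, layerField_isUnramifiedOutside hpS hK₀ n,
    fun g x hx => layerField_stable K₀ p n g hx, ?_, ⟨?_, ?_⟩, ?_⟩
  · -- `μ_p ⊆ K`
    intro w hw
    apply (le_sup_right : cycField p n ≤ layerField K₀ p n)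
    apply mem_cycField
    have h1 : p ^ n = p * p ^ (n - 1) := by
      rw [← pow_succ', Nat.sub_add_cancel hn1]
    rw [h1, pow_mul, hw, one_pow]
  · -- additivity
    intro σ hσ τ hτ
    exact kumChar_mul hω hζ0 (hfixK σ hσ).1 (hfixK σ hσ).2 (hfixK τ hτ).2
  · -- level
    refine ⟨cycField p (n + 1), isUnramifiedOutside_of_le_QS
      (cycField_finiteDimensional hp.pos _) (cycField_le_QS hpS _), fun s hs _ => ?_⟩
    have h1 := (mem_fixingSubgroup_cycField_iff p (n + 1) s).mp hs ζ hζ.pow_eq_one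
    apply kumChar_eq hω hζ0
    rw [ZMod.val_zero, pow_zero, one_mul, h1]
  · -- non-vanishing at every place over `p`
    intro A hA
    obtain ⟨ρ, hρ⟩ := exists_conj_padicPlace p A hA
    refine ⟨ρ⁻¹ * d₀ * ρ, conj_mem_decompositionSubgroup hρ hd₀D, ?_, ?_⟩
    · rw [IntermediateField.mem_fixingSubgroup_iff]
      intro x hx
      have h1 : ρ x ∈ K := layerField_stable K₀ p n ρ hx
      have h2 := (IntermediateField.mem_fixingSubgroup_iff _ d₀).mp hd₀K _ h1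
      show ρ⁻¹ (d₀ (ρ x)) = x
      rw [h2]
      show (ρ⁻¹ * ρ) x = x
      rw [inv_mul_cancel]
      rfl
    · intro hχ
      -- then `ρ⁻¹ d₀ ρ` fixes `ζ`
      have hdK : ρ⁻¹ * d₀ * ρ ∈ K.fixingSubgroup := by
        rw [IntermediateField.mem_fixingSubgroup_iff]
        intro x hx
        have h1 : ρ x ∈ K := layerField_stable K₀ p n ρ hx
        have h2 := (IntermediateField.mem_fixingSubgroup_iff _ d₀).mp hd₀K _ h1
        show ρ⁻¹ (d₀ (ρ x)) = x
        rw [h2]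
        show (ρ⁻¹ * ρ) x = x
        rw [inv_mul_cancel]
        rfl
      obtain ⟨c, hc⟩ := exists_kum hω hζ0 (hfixK _ hdK).2
      have hc0 : c = 0 := by
        rw [← kumChar_eq hω hζ0 hc]
        exact hχ
      rw [hc0, ZMod.val_zero, pow_zero, one_mul] at hc
      -- `d₀` fixes `ρ ζ`
      have h1 : d₀ (ρ ζ) = ρ ζ := by
        have : ρ ((ρ⁻¹ * d₀ * ρ) ζ) = ρ ζ := by rw [hc]
        have e : ρ ((ρ⁻¹ * d₀ * ρ) ζ) = d₀ (ρ ζ) := by
          show (ρ * (ρ⁻¹ * d₀ * ρ)) ζ = (d₀ * ρ) ζ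
          rw [← mul_assoc, ← mul_assoc, mul_inv_cancel, one_mul]
        rw [e] at this
        exact this
      -- `ρ ζ` is a primitive root, so `t₀` is a power of it
      have hρζ : IsPrimitiveRoot (ρ ζ) (p ^ (n + 1)) :=
        hζ.map_of_injective ρ.injective
      haveI : NeZero (p ^ (n + 1)) := ⟨(pow_pos hp.pos _).ne'⟩
      obtain ⟨i, -, hi⟩ := hρζ.eq_pow_of_pow_eq_one ht₀
      apply hd₀t₀
      rw [← hi, map_pow, h1]

end Fermat.Agent.H88.Cft

end
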