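/-
P-CFT GLOBAL / G-LOC (row 493, helper88), part 3: a finite group acting faithfully by isometries
on a henselian discretely valued field `F` with finite residue field: the extension `F / F^G`
carries a `LocalNormDatum` (helper78, row 352).
-/
import Fermat.Agent.H78.CFT.LocalDefs

set_option autoImplicit false
set_option maxSynthPendingDepth 3
set_option linter.unusedSectionVars false
set_option linter.style.haveILetI false

noncomputable section

namespace Fermat.Agent.H88.Cft

open Polynomial WithZero

section fixed

variable {G : Type*} [Group G] [Fintype G] {F : Type*} [Field F] [MulSemiringAction G F]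
  (val : Valuation F ℤᵐ⁰)

/-- Automorphisms over the fixed field are isometries. -/
theorem val_algEquiv (hinv : ∀ (g : G) (x : F), val (g • x) = val x)
    (σ : F ≃ₐ[FixedPoints.subfield G F] F) (x : F) : val (σ x) = val x := by
  obtain ⟨g, rfl⟩ := FixedPoints.toAlgAut_surjective G F σ
  exact hinv g x

/-- The norm to the fixed field is the product of the conjugates. -/
theorem algebraMap_norm_fixed [FaithfulSMul G F] (y : F) :
    algebraMap (FixedPoints.subfield G F) F (Algebra.norm (FixedPoints.subfield G F) y)
      = ∏ g : G, g • y := by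
  haveI : FiniteDimensional (FixedPoints.subfield G F) F := inferInstance
  rw [Algebra.norm_eq_prod_automorphisms]
  symm
  exact Fintype.prod_equiv (FixedPoints.toAlgAutMulEquiv G F).toEquiv _ _ (fun g => rfl)

/-- Every nonzero element of `ℤᵐ⁰` is a power of `exp (-1)`. -/
theorem exists_zpow_exp_neg_one {a : ℤᵐ⁰} (ha : a ≠ 0) :
    ∃ n : ℤ, a = (exp (-1 : ℤ)) ^ n := by
  refine ⟨-log a, ?_⟩
  rw [← exp_zsmul, smul_eq_mul, mul_neg, mul_one, neg_neg, exp_log ha]

/-- The value group of a subfield with a nontrivial value is generated by one element. -/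
theorem exists_unif_subfield (E : Subfield F) (hnt : ∃ c ∈ E, c ≠ 0 ∧ val c < 1) :
    ∃ π : E, π ≠ 0 ∧ val (π : F) < 1 ∧
      ∀ x : E, x ≠ 0 → ∃ n : ℤ, val (x : F) = val (π : F) ^ n := by
  classical
  -- the positive exponents occurring
  let P : ℕ → Prop := fun k => 0 < k ∧ ∃ c : E, c ≠ 0 ∧ val (c : F) = exp (-(k : ℤ))
  have hP : ∃ k, P k := by
    obtain ⟨c, hcE, hc0, hc1⟩ := hnt
    have hv0 : val c ≠ 0 := (Valuation.ne_zero_iff val).2 hc0
    have hlog : log (val c) < 0 := by
      rw [← exp_lt_exp, exp_log hv0, exp_zero]; exact hc1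
    refine ⟨(-log (val c)).toNat, by omega, ⟨c, hcE⟩, fun h => hc0 (congrArg Subtype.val h), ?_⟩
    show val c = _
    rw [Int.toNat_of_nonneg (by omega), neg_neg, exp_log hv0]
  obtain ⟨hd0, π, hπ0, hπ⟩ := Nat.find_spec hP
  set d := Nat.find hP with hd
  have hπ1 : val (π : F) < 1 := by
    rw [hπ, ← exp_zero, exp_lt_exp]; omega
  refine ⟨π, hπ0, hπ1, fun x hx => ?_⟩
  have hxF : (x : F) ≠ 0 := fun h => hx (Subtype.ext h)
  have hvx : val (x : F) ≠ 0 := (Valuation.ne_zero_iff val).2 hxF
  set n : ℤ := -log (val (x : F)) with hn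
  have hxn : val (x : F) = exp (-n) := by rw [hn, neg_neg, exp_log hvx]
  -- division with remainder
  have hdpos : (0 : ℤ) < d := by exact_mod_cast hd0
  set q : ℤ := n / d with hq
  set r : ℤ := n % d with hr
  have hr0 : 0 ≤ r := Int.emod_nonneg _ hdpos.ne'
  have hrd : r < d := Int.emod_lt_of_pos _ hdpos
  have hqr : n = d * q + r := (Int.mul_ediv_add_emod n d).symm
  have hπF : (π : F) ≠ 0 := fun h => hπ0 (Subtype.ext h)
  -- the element `x / π ^ q` has value `exp (-r)`
  have hval : val ((x * π ^ (-q) : E) : F) = exp (-r) := by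
    have e1 : ((x * π ^ (-q) : E) : F) = (x : F) * (π : F) ^ (-q) := by
      push_cast
      rfl
    rw [e1, map_mul, map_zpow₀, hxn, hπ, ← exp_zsmul, ← exp_add]
    congr 1
    rw [smul_eq_mul]
    linarith
  have hr_eq : r = 0 := by
    by_contra hne
    have hrpos : 0 < r := lt_of_le_of_ne hr0 (Ne.symm hne)
    have hPr : P r.toNat := by
      refine ⟨by omega, x * π ^ (-q), ?_, ?_⟩
      · exact mul_ne_zero hx (zpow_ne_zero _ hπ0)
      · rw [hval, Int.toNat_of_nonneg hr0]
    have := Nat.find_min' hP hPr
    omega
  refine ⟨q, ?_⟩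
  rw [hxn, hπ, ← exp_zsmul]
  congr 1
  rw [smul_eq_mul, hqr, hr_eq]
  ring


/-- Evaluation of a polynomial with fixed coefficients commutes with the action. -/
theorem smul_eval_map_fixed (f : (FixedPoints.subfield G F)[X]) (g : G) (a : F) :
    (f.map (algebraMap (FixedPoints.subfield G F) F)).eval (g • a)
      = g • (f.map (algebraMap (FixedPoints.subfield G F) F)).eval a := by
  rw [Polynomial.eval_map, Polynomial.eval_map]
  have h := Polynomial.hom_eval₂ f (algebraMap (FixedPoints.subfield G F) F)
    (MulSemiringAction.toRingHom G F g) a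
  have hcomp : (MulSemiringAction.toRingHom G F g).comp
      (algebraMap (FixedPoints.subfield G F) F) = algebraMap (FixedPoints.subfield G F) F := by
    ext x
    exact x.2 g
  rw [hcomp] at h
  exact h.symm

/-- **Hensel's lemma descends to the fixed field** (by uniqueness of the Hensel root). -/
theorem hensel_fixed (hinv : ∀ (g : G) (x : F), val (g • x) = val x)
    (hens : HenselianLocalRing val.valuationSubring)
    (f : (FixedPoints.subfield G F)[X]) (hf : f.Monic)
    (hcoef : ∀ i, val (algebraMap (FixedPoints.subfield G F) F (f.coeff i)) ≤ 1)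
    (a₀ : FixedPoints.subfield G F)
    (ha₀ : val (algebraMap (FixedPoints.subfield G F) F a₀) ≤ 1)
    (h1 : val (algebraMap (FixedPoints.subfield G F) F (f.eval a₀)) < 1)
    (h2 : val (algebraMap (FixedPoints.subfield G F) F (f.derivative.eval a₀)) = 1) :
    ∃ a : FixedPoints.subfield G F, f.eval a = 0 ∧
      val (algebraMap (FixedPoints.subfield G F) F (a - a₀)) < 1 := by
  classical
  set O := val.valuationSubring with hO
  set φ : (FixedPoints.subfield G F) →+* F := algebraMap (FixedPoints.subfield G F) F with hφ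
  set fF : F[X] := f.map φ with hfF
  have hint := Valuation.valuationSubring.integers val
  -- lift to the valuation ring
  have hlifts : fF ∈ Polynomial.lifts O.subtype := by
    rw [Polynomial.lifts_iff_coeff_lifts]
    intro n
    rw [hfF, Polynomial.coeff_map]
    exact ⟨⟨_, hcoef n⟩, rfl⟩
  obtain ⟨q, hq, -, hqm⟩ := Polynomial.lifts_and_degree_eq_and_monic hlifts (hf.map φ)
  have hevalq : ∀ a : O, ((q.eval a : O) : F) = fF.eval (a : F) := by
    intro a
    rw [← hq, Polynomial.eval_map]
    exact (Polynomial.eval₂_at_apply O.subtype a).symm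
  have hevalq' : ∀ a : O, ((q.derivative.eval a : O) : F) = fF.derivative.eval (a : F) := by
    intro a
    rw [← hq, Polynomial.derivative_map, Polynomial.eval_map]
    exact (Polynomial.eval₂_at_apply O.subtype a).symm
  have hfFeval : ∀ b : FixedPoints.subfield G F, fF.eval (φ b) = φ (f.eval b) := by
    intro b
    rw [hfF, Polynomial.eval_map]
    exact Polynomial.eval₂_at_apply φ b
  have hfFeval' : ∀ b : FixedPoints.subfield G F,
      fF.derivative.eval (φ b) = φ (f.derivative.eval b) := by
    intro b
    rw [hfF, Polynomial.derivative_map, Polynomial.eval_map]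
    exact Polynomial.eval₂_at_apply φ b
  set a₀O : O := ⟨φ a₀, ha₀⟩ with ha₀O
  have hm1 : q.eval a₀O ∈ IsLocalRing.maximalIdeal O := by
    rw [Valuation.mem_maximalIdeal_iff, hevalq]
    show val (fF.eval (φ a₀)) < 1
    rw [hfFeval]; exact h1
  have hu1 : IsUnit (q.derivative.eval a₀O) := by
    rw [hint.isUnit_iff_valuation_eq_one]
    show val ((q.derivative.eval a₀O : O) : F) = 1
    rw [hevalq']
    show val (fF.derivative.eval (φ a₀)) = 1
    rw [hfFeval']; exact h2
  obtain ⟨a, haroot, hamem⟩ := hens.is_henselian q hqm a₀O hm1 hu1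
  rw [Valuation.mem_maximalIdeal_iff] at hamem
  have hamem' : val ((a : F) - φ a₀) < 1 := hamem
  -- the derivative at `a` is a unit
  have hu2 : IsUnit (q.derivative.eval a) := by
    obtain ⟨c, hc⟩ := Polynomial.sub_dvd_eval_sub a a₀O q.derivative
    rw [hint.isUnit_iff_valuation_eq_one]
    have hu1' := hint.isUnit_iff_valuation_eq_one.mp hu1
    have e : q.derivative.eval a = q.derivative.eval a₀O + (a - a₀O) * c := by
      rw [← hc]; ring
    rw [e, map_add, Valuation.map_add_eq_of_lt_left]
    · exact hu1'
    · rw [hu1', map_mul, map_mul]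
      calc val (algebraMap O F (a - a₀O)) * val (algebraMap O F c)
          ≤ val (algebraMap O F (a - a₀O)) * 1 := mul_le_mul' le_rfl c.2
        _ = val (algebraMap O F (a - a₀O)) := mul_one _
        _ < 1 := hamem
  -- invariance of the root
  have hfix : ∀ g : G, g • (a : F) = (a : F) := by
    intro g
    have hga : val (g • (a : F)) ≤ 1 := by rw [hinv]; exact a.2
    set b : O := ⟨g • (a : F), hga⟩ with hb
    have hbroot : q.eval b = 0 := by
      apply Subtype.ext
      rw [hevalq]
      show fF.eval (g • (a : F)) = 0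
      rw [hfF, smul_eval_map_fixed, ← hfF, ← hevalq, haroot]
      simp
    have hnu : ¬ IsUnit (a - b) := by
      rw [hint.isUnit_iff_valuation_eq_one]
      apply ne_of_lt
      show val ((a : F) - g • (a : F)) < 1
      have e : (a : F) - g • (a : F) = ((a : F) - φ a₀) - g • ((a : F) - φ a₀) := by
        rw [smul_sub]
        have : g • φ a₀ = φ a₀ := a₀.2 g
        rw [this]; ring
      rw [e]
      refine lt_of_le_of_lt (Valuation.map_sub _ _ _) (max_lt hamem' ?_)
      rw [hinv]; exact hamem'
    have := IsLocalRing.eq_of_eval_eq_zero_of_not_isUnit_sub haroot hbroot hnu hu2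
    exact (congrArg (fun z : O => (z : F)) this).symm
  refine ⟨⟨(a : F), hfix⟩, ?_, ?_⟩
  · apply (algebraMap (FixedPoints.subfield G F) F).injective
    rw [map_zero]
    have := hfFeval ⟨(a : F), hfix⟩
    rw [← hφ, ← this]
    show fF.eval (a : F) = 0
    rw [← hevalq, haroot]
    simp
  · rw [map_sub]
    exact hamem'

/-- Representatives of a finite residue field. -/
theorem exists_finset_repr (hfin : Finite (IsLocalRing.ResidueField val.valuationSubring)) :
    ∃ R : Finset F, ∀ x : F, val x ≤ 1 → ∃ r ∈ R, val (x - r) < 1 := by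
  classical
  haveI := Fintype.ofFinite (IsLocalRing.ResidueField val.valuationSubring)
  refine ⟨Finset.univ.image (fun q : IsLocalRing.ResidueField val.valuationSubring =>
    ((Function.surjInv (IsLocalRing.residue_surjective (R := val.valuationSubring)) q :
      val.valuationSubring) : F)), fun x hx => ?_⟩
  set xO : val.valuationSubring := ⟨x, hx⟩
  refine ⟨_, Finset.mem_image_of_mem _ (Finset.mem_univ (IsLocalRing.residue _ xO)), ?_⟩
  set r := Function.surjInv (IsLocalRing.residue_surjective (R := val.valuationSubring))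
    (IsLocalRing.residue _ xO)
  have hr : IsLocalRing.residue _ r = IsLocalRing.residue _ xO :=
    Function.surjInv_eq _ _
  have hmem : xO - r ∈ IsLocalRing.maximalIdeal val.valuationSubring := by
    rw [← IsLocalRing.residue_eq_zero_iff, map_sub, hr, sub_self]
  rw [Valuation.mem_maximalIdeal_iff] at hmem
  exact hmem

/-- **The local datum of the fixed field.** -/
theorem localNormDatum_fixed (hinv : ∀ (g : G) (x : F), val (g • x) = val x)
    (hens : HenselianLocalRing val.valuationSubring)
    (hfin : Finite (IsLocalRing.ResidueField val.valuationSubring))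
    (hsurj : Function.Surjective val)
    (hnt : ∃ c ∈ FixedPoints.subfield G F, c ≠ 0 ∧ val c < 1) :
    Fermat.Agent.H78.CFT.LocalNormDatum (FixedPoints.subfield G F) F val where
  galois_inv := val_algEquiv val hinv
  unifL := by
    obtain ⟨ϖ, hϖ⟩ := hsurj (exp (-1 : ℤ))
    have hϖ0 : ϖ ≠ 0 := by
      rw [← Valuation.ne_zero_iff val, hϖ]; exact exp_ne_zero
    refine ⟨ϖ, hϖ0, ?_, fun x hx => ?_⟩
    · rw [hϖ, ← exp_zero, exp_lt_exp]; omega
    · rw [hϖ]
      exact exists_zpow_exp_neg_one ((Valuation.ne_zero_iff val).2 hx)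
  unifK := by
    obtain ⟨π, hπ0, hπ1, hπ⟩ := exists_unif_subfield val (FixedPoints.subfield G F) hnt
    exact ⟨π, hπ0, hπ1, hπ⟩
  res_finite := exists_finset_repr val hfin
  hensel := hensel_fixed val hinv hens

/-- The Galois group of `F / F^G` is cyclic if `G` has prime order. -/
theorem isCyclic_fixed [FaithfulSMul G F] (hp : (Nat.card G).Prime) :
    IsCyclic (F ≃ₐ[FixedPoints.subfield G F] F) := by
  haveI : Fact (Nat.card G).Prime := ⟨hp⟩
  haveI : IsCyclic G := isCyclic_of_prime_card rfl
  exact isCyclic_of_surjective (FixedPoints.toAlgAutMulEquiv G F)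
    (FixedPoints.toAlgAutMulEquiv G F).surjective

end fixed

end Fermat.Agent.H88.Cft

end
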